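import Fermat.Agent.S05.Core9

set_option autoImplicit false
set_option linter.unusedSectionVars false

namespace Fermat.Agent.S05

open WeierstrassCurve WeierstrassCurve.Affine

variable {K : Type*} [Field K] [DecidableEq K] {Γ₀ : Type*} [LinearOrderedCommGroupWithZero Γ₀]
  (v : Valuation K Γ₀) {W : WeierstrassCurve.Affine K}

section Final

variable (σ : K →+* K) (τ : W.Point →+ W.Point)

theorem finish_aux (hW : Special W) (ha : v W.a₂ = 1) (hb : v W.a₄ < 1) (h2 : v (2 : K) = 1)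
    (hσ1' : ∀ x, 1 < v x → 1 < v (σ x)) (hσ1 : ∀ x, v x ≤ 1 → v (σ x) ≤ 1)
    (hσ2 : ∀ x, v x ≤ 1 → v (σ x - x) < 1)
    (hτ : ∀ (x y : K) (h : W.Nonsingular x y),
      ∃ h' : W.Nonsingular (σ x) (σ y), τ (Point.some x y h) = Point.some (σ x) (σ y) h')
    {p : ℕ} (hpv : v (p : K) = 1) {P P'' : W.Point} (hpP : p • P = 0) (hτP'' : τ P'' = P'')
    (hR : InE0 v (P - P'')) : τ P = P := by
  have hR' : τ (P - P'') = P - P'' :=
    fixed_of_nsRed v σ τ hW (le_of_eq ha) (le_of_lt hb) h2 hσ1' hσ1 hσ2 hτ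
      (nsRed_of_inE0 v hW ha hb h2 hR) p hpv
      (by rw [nsmul_sub, hpP, zero_sub, map_neg, map_nsmul, hτP''])
  have : τ P = τ (P - P'') + τ P'' := by rw [← map_add, sub_add_cancel]
  rw [this, hR', hτP'', sub_add_cancel]

/-- Multiplicative reduction with `p ∣ v(a₄)`: `τ` fixes the `p`-torsion. -/
theorem mult_case (hW : Special W) (ha : v W.a₂ = 1) (h2 : v (2 : K) = 1)
    {p : ℕ} (hp : p.Prime) (hp2 : p ≠ 2) (hpv : v (p : K) = 1)
    (hσ1' : ∀ x, 1 < v x → 1 < v (σ x)) (hσ1 : ∀ x, v x ≤ 1 → v (σ x) ≤ 1)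
    (hσ2 : ∀ x, v x ≤ 1 → v (σ x - x) < 1)
    (hτ : ∀ (x y : K) (h : W.Nonsingular x y),
      ∃ h' : W.Nonsingular (σ x) (σ y), τ (Point.some x y h) = Point.some (σ x) (σ y) h')
    (hσa : σ W.a₂ = W.a₂) (hσb : σ W.a₄ = W.a₄)
    (b₀ u : K) (hbu : W.a₄ = u * b₀ ^ p) (hu : v u = 1) (hb₀ : v b₀ < 1) (hb₀0 : b₀ ≠ 0)
    (hσb₀ : σ b₀ = b₀) (hsq : ∀ w : K, ∃ g : K, g ^ 2 = w)
    (P : W.Point) (hpP : p • P = 0) : τ P = P := by
  have hb : v W.a₄ < 1 := by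
    rw [hbu, map_mul, hu, one_mul, map_pow]
    exact pow_lt_one₀ zero_le hb₀ hp.ne_zero
  have hu0 : u ≠ 0 := ne_zero_of_unit v hu
  have hb0 : W.a₄ ≠ 0 := by
    rw [hbu]; exact mul_ne_zero hu0 (pow_ne_zero p hb₀0)
  have hT := nonsingular_T hW hb0
  by_cases hP0 : InE0 v P
  · exact fixed_of_nsRed v σ τ hW (le_of_eq ha) (le_of_lt hb) h2 hσ1' hσ1 hσ2 hτ
      (nsRed_of_inE0 v hW ha hb h2 hP0) p hpv (by rw [hpP, map_zero])
  · obtain ⟨k, hk⟩ := torsion_val v hW ha hb hb0 hT h2 hp hp2 hpP hP0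
    have h1 : ¬ (p : ℤ) ∣ 1 := by
      intro h
      have h' : p ∣ 1 := by exact_mod_cast h
      exact hp.one_lt.ne' (Nat.dvd_one.1 h')
    obtain ⟨x, y, h, e, hx0, hx, hbx⟩ := near_node v hW ha hb hT hp hp2 hpP hP0 h1
    rw [one_smul] at e
    subst e
    have hk' : p • ord v x = (2 * k) • ord v W.a₄ := hk
    have hordb : ord v W.a₄ = p • ord v b₀ := by
      rw [hbu, ord_mul v hu0 (pow_ne_zero p hb₀0), ord_pow v hb₀0, (ord_eq_zero_iff v hu0).2 hu,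
        zero_add]
    have hj : ord v x = (2 * k) • ord v b₀ := by
      have h3 : p • ord v x = p • ((2 * k) • ord v b₀) := by
        rw [hk', hordb, smul_comm]
      exact nsmul_right_injective hp.ne_zero h3
    have hb₀pos : 0 < ord v b₀ := (ord_pos_iff v hb₀0).2 hb₀
    have hxpos : 0 < ord v x := (ord_pos_iff v hx0).2 hx
    have hkpos : 0 < k := by
      by_contra hcon
      rw [not_lt] at hcon
      have : (2 * k) • ord v b₀ ≤ 0 := by
        obtain ⟨n, hn⟩ : ∃ n : ℕ, 2 * k = -(n : ℤ) := ⟨(-(2 * k)).toNat, by omega⟩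
        rw [hn, neg_smul, natCast_zsmul]
        exact neg_nonpos.2 (nsmul_nonneg (le_of_lt hb₀pos) n)
      rw [← hj] at this
      exact absurd hxpos (not_lt.2 this)
    have hX'0 : b₀ ^ (2 * k.toNat) ≠ 0 := pow_ne_zero _ hb₀0
    have hordX' : ord v (b₀ ^ (2 * k.toNat)) = ord v x := by
      rw [ord_pow v hb₀0, hj, ← natCast_zsmul]
      congr 1
      push_cast
      rw [Int.toNat_of_nonneg (le_of_lt hkpos)]
    have hvX' : v (b₀ ^ (2 * k.toNat)) = v x := (ord_eq_iff v hX'0 hx0).1 hordX'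
    have hσX' : σ (b₀ ^ (2 * k.toNat)) = b₀ ^ (2 * k.toNat) := by rw [map_pow, hσb₀]
    generalize b₀ ^ (2 * k.toNat) = X' at hX'0 hvX' hσX'
    obtain ⟨g, hg⟩ := hsq (X' + W.a₂ + W.a₄ / X')
    have hX's : v X' < 1 := by rw [hvX']; exact hx
    have hvx : 0 < v x := zero_lt_iff.2 ((Valuation.ne_zero_iff v).2 hx0)
    have hbX' : v (W.a₄ / X') < 1 := by
      rw [map_div₀, hvX']; exact (div_lt_one₀ hvx).2 hbx
    have hw : v (X' + W.a₂ + W.a₄ / X') = 1 := by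
      have : X' + W.a₂ + W.a₄ / X' = W.a₂ + (X' + W.a₄ / X') := by ring
      rw [this]; exact unit_add_sm v ha (sm_add v hX's hbX')
    have hgu : v g = 1 := unit_of_sq_unit v (by rw [hg]; exact hw)
    have hg0 : g ≠ 0 := ne_zero_of_unit v hgu
    have hσw : σ (X' + W.a₂ + W.a₄ / X') = X' + W.a₂ + W.a₄ / X' := by
      rw [map_add, map_add, map_div₀, hσX', hσa, hσb]
    have hσg : σ g = g := by
      have h1 : σ g ^ 2 = g ^ 2 := by rw [← map_pow, hg, hσw]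
      have h3 : (σ g - g) * (σ g + g) = 0 := by linear_combination h1
      rcases mul_eq_zero.1 h3 with h4 | h4
      · exact sub_eq_zero.1 h4
      · exfalso
        have h5 := hσ2 g (le_of_eq hgu)
        have : σ g - g = -(2 * g) := by linear_combination h4
        rw [this, Valuation.map_neg, map_mul, h2, hgu, one_mul] at h5
        exact lt_irrefl _ h5
    have h20 : (2 : K) ≠ 0 := ne_zero_of_unit v h2
    have hP'ns : W.Nonsingular X' (X' * g) := by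
      rw [Affine.nonsingular_iff']
      refine ⟨(eqn_iff hW X' (X' * g)).2 ?_, Or.inr ?_⟩
      · have : (X' * g) ^ 2 = X' ^ 2 * (X' + W.a₂ + W.a₄ / X') := by rw [mul_pow, hg]
        rw [this]
        field_simp
      · rw [hW.1, hW.2.1]
        have : (2 : K) * (X' * g) ≠ 0 := mul_ne_zero h20 (mul_ne_zero hX'0 hg0)
        simpa using this
    obtain ⟨h', hτP'⟩ := hτ X' (X' * g) hP'ns
    have hτP'' : τ (Point.some X' (X' * g) hP'ns) = Point.some X' (X' * g) hP'ns := by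
      rw [hτP']
      simp only [Point.some.injEq]
      exact ⟨hσX', by rw [map_mul, hσX', hσg]⟩
    rcases same_val_inE0 v hW ha h2 h hP'ns hx0 hX'0 hvX'.symm hx hbx with hR | hR
    · exact finish_aux v σ τ hW ha hb h2 hσ1' hσ1 hσ2 hτ hpv hpP hτP'' hR
    · have hτneg : τ (-Point.some X' (X' * g) hP'ns) = -Point.some X' (X' * g) hP'ns := by
        rw [map_neg, hτP'']
      have hR' : InE0 v (Point.some x y h - -Point.some X' (X' * g) hP'ns) := by
        rw [sub_neg_eq_add]; exact hR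
      exact finish_aux v σ τ hW ha hb h2 hσ1' hσ1 hσ2 hτ hpv hpP hτneg hR'

/-- The core theorem: on `Y² = X³ + a₂X² + a₄X` with good reduction, or with multiplicative
reduction and `a₄ = u b₀ᵖ`, an inertia-like automorphism fixes all `p`-torsion points. -/
theorem core (hW : Special W) (ha : v W.a₂ ≤ 1) (hb : v W.a₄ ≤ 1) (h2 : v (2 : K) = 1)
    {p : ℕ} (hp : p.Prime) (hp2 : p ≠ 2) (hpv : v (p : K) = 1)
    (hσ1' : ∀ x, 1 < v x → 1 < v (σ x)) (hσ1 : ∀ x, v x ≤ 1 → v (σ x) ≤ 1)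
    (hσ2 : ∀ x, v x ≤ 1 → v (σ x - x) < 1)
    (hτ : ∀ (x y : K) (h : W.Nonsingular x y),
      ∃ h' : W.Nonsingular (σ x) (σ y), τ (Point.some x y h) = Point.some (σ x) (σ y) h')
    (hσa : σ W.a₂ = W.a₂) (hσb : σ W.a₄ = W.a₄) (hsq : ∀ w : K, ∃ g : K, g ^ 2 = w)
    (hred : v (W.a₄ ^ 2 * (W.a₂ ^ 2 - 4 * W.a₄)) = 1 ∨
      (v W.a₂ = 1 ∧ ∃ b₀ u : K, W.a₄ = u * b₀ ^ p ∧ v u = 1 ∧ v b₀ < 1 ∧ b₀ ≠ 0 ∧ σ b₀ = b₀))
    (P : W.Point) (hpP : p • P = 0) : τ P = P := by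
  rcases hred with hgood | ⟨ha1, b₀, u, hbu, hu, hb₀, hb₀0, hσb₀⟩
  · exact fixed_of_nsRed v σ τ hW ha hb h2 hσ1' hσ1 hσ2 hτ
      (nsRed_of_good v hW ha hb h2 hgood P) p hpv (by rw [hpP, map_zero])
  · exact mult_case v σ τ hW ha1 h2 hp hp2 hpv hσ1' hσ1 hσ2 hτ hσa hσb b₀ u hbu hu hb₀ hb₀0
      hσb₀ hsq P hpP

end Final

end Fermat.Agent.S05
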