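import Mathlib
import Fermat.Prelude.Def_FLTPrelim_Ramification

set_option autoImplicit false

open scoped Pointwise

namespace Fermat.Agent.S05

/-- (M-inertia) unpacking the inertia subgroup. -/
theorem inertia_props (A : ValuationSubring (AlgebraicClosure ℚ))
    (σ : AlgebraicClosure ℚ ≃ₐ[ℚ] AlgebraicClosure ℚ) (hσ : σ ∈ A.inertiaSubgroupIn ℚ) :
    (∀ x, A.valuation x ≤ 1 → A.valuation (σ x) ≤ 1) ∧
    (∀ x, 1 < A.valuation x → 1 < A.valuation (σ x)) ∧
    (∀ x, A.valuation x ≤ 1 → A.valuation (σ x - x) < 1) := by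
  obtain ⟨g, hg, rfl⟩ := hσ
  have hgA : (g : AlgebraicClosure ℚ ≃ₐ[ℚ] AlgebraicClosure ℚ) • A = A := g.2
  have hmem : ∀ x, x ∈ A → (g : AlgebraicClosure ℚ ≃ₐ[ℚ] AlgebraicClosure ℚ) x ∈ A := by
    intro x hx
    have h := ValuationSubring.smul_mem_pointwise_smul
      (g : AlgebraicClosure ℚ ≃ₐ[ℚ] AlgebraicClosure ℚ) x A hx
    rw [hgA] at h
    exact h
  have hmem' : ∀ x, (g : AlgebraicClosure ℚ ≃ₐ[ℚ] AlgebraicClosure ℚ) x ∈ A → x ∈ A := by
    intro x hx
    have h : (g : AlgebraicClosure ℚ ≃ₐ[ℚ] AlgebraicClosure ℚ) • x ∈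
        (g : AlgebraicClosure ℚ ≃ₐ[ℚ] AlgebraicClosure ℚ) • A := by
      rw [hgA]; exact hx
    exact ValuationSubring.smul_mem_pointwise_smul_iff.mp h
  refine ⟨fun x hx => ?_, fun x hx => ?_, fun x hx => ?_⟩
  · rw [ValuationSubring.valuation_le_one_iff] at hx ⊢
    exact hmem x hx
  · rw [lt_iff_not_ge, ValuationSubring.valuation_le_one_iff] at hx ⊢
    exact fun h => hx (hmem' x h)
  · rw [ValuationSubring.valuation_le_one_iff] at hx
    have hker : ∀ y : IsLocalRing.ResidueField A, g • y = y := fun y => by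
      have h1 : MulSemiringAction.toRingAut (A.decompositionSubgroup ℚ)
          (IsLocalRing.ResidueField A) g = 1 := hg
      have h2 := congrArg (fun e : RingAut (IsLocalRing.ResidueField A) => e y) h1
      exact h2
    have h3 := hker (IsLocalRing.residue A ⟨x, hx⟩)
    rw [← IsLocalRing.ResidueField.residue_smul, ← sub_eq_zero, ← map_sub,
      IsLocalRing.residue_eq_zero_iff, ValuationSubring.valuation_lt_one_iff] at h3
    exact h3

theorem inertia_valuation_intCast_le_one (A : ValuationSubring (AlgebraicClosure ℚ)) (m : ℤ) :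
    A.valuation (m : AlgebraicClosure ℚ) ≤ 1 := by
  rw [ValuationSubring.valuation_le_one_iff]
  exact intCast_mem A m

/-- (M-inertia) multiples of q are non-units at a valuation ring over q. -/
theorem valuation_intCast_lt_one (A : ValuationSubring (AlgebraicClosure ℚ)) {q : ℕ}
    (hA : A.LiesOverPrime q) (m : ℤ) (hm : (q : ℤ) ∣ m) :
    A.valuation (m : AlgebraicClosure ℚ) < 1 := by
  obtain ⟨k, rfl⟩ := hm
  have hq : A.valuation (q : AlgebraicClosure ℚ) < 1 := A.mem_nonunits_iff.mp hA
  have hk := inertia_valuation_intCast_le_one A k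
  push_cast
  rw [map_mul]
  calc A.valuation (q : AlgebraicClosure ℚ) * A.valuation (k : AlgebraicClosure ℚ)
      ≤ A.valuation (q : AlgebraicClosure ℚ) * 1 := mul_le_mul_right hk _
    _ = A.valuation (q : AlgebraicClosure ℚ) := mul_one _
    _ < 1 := hq

/-- (M-inertia) integers prime to q are units at a valuation ring over q. -/
theorem valuation_intCast_eq_one (A : ValuationSubring (AlgebraicClosure ℚ)) {q : ℕ} (hq : q.Prime)
    (hA : A.LiesOverPrime q) (m : ℤ) (hm : ¬ (q : ℤ) ∣ m) :
    A.valuation (m : AlgebraicClosure ℚ) = 1 := by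
  have hprime : Prime (q : ℤ) := Nat.prime_iff_prime_int.mp hq
  obtain ⟨u, v, huv⟩ := (Prime.coprime_iff_not_dvd hprime).mpr hm
  have hle := inertia_valuation_intCast_le_one A m
  rcases lt_or_eq_of_le hle with hlt | heq
  · exfalso
    have hqv : A.valuation (q : AlgebraicClosure ℚ) < 1 := A.mem_nonunits_iff.mp hA
    have h1 : (1 : AlgebraicClosure ℚ) = (u : AlgebraicClosure ℚ) * (q : AlgebraicClosure ℚ)
        + (v : AlgebraicClosure ℚ) * (m : AlgebraicClosure ℚ) := by
      have := congrArg (fun z : ℤ => (z : AlgebraicClosure ℚ)) huv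
      push_cast at this
      exact this.symm
    have h2 : A.valuation ((u : AlgebraicClosure ℚ) * (q : AlgebraicClosure ℚ)) < 1 := by
      rw [map_mul]
      calc A.valuation (u : AlgebraicClosure ℚ) * A.valuation (q : AlgebraicClosure ℚ)
          ≤ 1 * A.valuation (q : AlgebraicClosure ℚ) :=
            mul_le_mul_left (inertia_valuation_intCast_le_one A u) _
        _ = A.valuation (q : AlgebraicClosure ℚ) := one_mul _
        _ < 1 := hqv
    have h3 : A.valuation ((v : AlgebraicClosure ℚ) * (m : AlgebraicClosure ℚ)) < 1 := by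
      rw [map_mul]
      calc A.valuation (v : AlgebraicClosure ℚ) * A.valuation (m : AlgebraicClosure ℚ)
          ≤ 1 * A.valuation (m : AlgebraicClosure ℚ) :=
            mul_le_mul_left (inertia_valuation_intCast_le_one A v) _
        _ = A.valuation (m : AlgebraicClosure ℚ) := one_mul _
        _ < 1 := hlt
    have h4 : A.valuation (1 : AlgebraicClosure ℚ) < 1 := by
      rw [h1]
      exact lt_of_le_of_lt (Valuation.map_add _ _ _) (max_lt h2 h3)
    rw [map_one] at h4
    exact lt_irrefl _ h4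
  · exact heq

end Fermat.Agent.S05
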