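import Mathlib

set_option autoImplicit false

namespace Fermat.Agent.S05

open WeierstrassCurve

section

variable {F : Type*} [Field F] (W₁ W₂ : WeierstrassCurve.Affine F) (u r s t : F)

theorem transport_poly
    (h1 : u * W₁.a₁ = W₂.a₁ + 2 * s)
    (h2 : u ^ 2 * W₁.a₂ = W₂.a₂ - s * W₂.a₁ + 3 * r - s ^ 2)
    (h3 : u ^ 3 * W₁.a₃ = W₂.a₃ + r * W₂.a₁ + 2 * t)
    (h4 : u ^ 4 * W₁.a₄ = W₂.a₄ - s * W₂.a₃ + 2 * r * W₂.a₂ - (t + r * s) * W₂.a₁ + 3 * r ^ 2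
      - 2 * s * t)
    (h6 : u ^ 6 * W₁.a₆ = W₂.a₆ + r * W₂.a₄ + r ^ 2 * W₂.a₂ + r ^ 3 - t * W₂.a₃ - t ^ 2
      - r * t * W₂.a₁) (x y : F) :
    (u ^ 3 * y + u ^ 2 * s * x + t) ^ 2 + W₂.a₁ * (u ^ 2 * x + r) * (u ^ 3 * y + u ^ 2 * s * x + t)
        + W₂.a₃ * (u ^ 3 * y + u ^ 2 * s * x + t)
        - ((u ^ 2 * x + r) ^ 3 + W₂.a₂ * (u ^ 2 * x + r) ^ 2 + W₂.a₄ * (u ^ 2 * x + r) + W₂.a₆)
      = u ^ 6 * (y ^ 2 + W₁.a₁ * x * y + W₁.a₃ * y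
          - (x ^ 3 + W₁.a₂ * x ^ 2 + W₁.a₄ * x + W₁.a₆)) := by
  linear_combination (-(u ^ 5 * x * y)) * h1 + (u ^ 4 * x ^ 2) * h2 + (-(u ^ 3 * y)) * h3
    + (u ^ 2 * x) * h4 + h6

theorem transport_polyY
    (h1 : u * W₁.a₁ = W₂.a₁ + 2 * s)
    (h3 : u ^ 3 * W₁.a₃ = W₂.a₃ + r * W₂.a₁ + 2 * t) (x y : F) :
    2 * (u ^ 3 * y + u ^ 2 * s * x + t) + W₂.a₁ * (u ^ 2 * x + r) + W₂.a₃
      = u ^ 3 * (2 * y + W₁.a₁ * x + W₁.a₃) := by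
  linear_combination (-(u ^ 2 * x)) * h1 - h3

theorem transport_polyX
    (h1 : u * W₁.a₁ = W₂.a₁ + 2 * s)
    (h2 : u ^ 2 * W₁.a₂ = W₂.a₂ - s * W₂.a₁ + 3 * r - s ^ 2)
    (h3 : u ^ 3 * W₁.a₃ = W₂.a₃ + r * W₂.a₁ + 2 * t)
    (h4 : u ^ 4 * W₁.a₄ = W₂.a₄ - s * W₂.a₃ + 2 * r * W₂.a₂ - (t + r * s) * W₂.a₁ + 3 * r ^ 2
      - 2 * s * t) (x y : F) :
    W₂.a₁ * (u ^ 3 * y + u ^ 2 * s * x + t)
        - (3 * (u ^ 2 * x + r) ^ 2 + 2 * W₂.a₂ * (u ^ 2 * x + r) + W₂.a₄)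
      = u ^ 4 * (W₁.a₁ * y - (3 * x ^ 2 + 2 * W₁.a₂ * x + W₁.a₄))
        - s * u ^ 3 * (2 * y + W₁.a₁ * x + W₁.a₃) := by
  linear_combination (-(u ^ 3 * y) + s * u ^ 2 * x) * h1 + (2 * u ^ 2 * x) * h2 + s * h3 + h4

theorem transport_negY
    (h1 : u * W₁.a₁ = W₂.a₁ + 2 * s)
    (h3 : u ^ 3 * W₁.a₃ = W₂.a₃ + r * W₂.a₁ + 2 * t) (x y : F) :
    W₂.negY (u ^ 2 * x + r) (u ^ 3 * y + u ^ 2 * s * x + t)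
      = u ^ 3 * W₁.negY x y + u ^ 2 * s * x + t := by
  simp only [Affine.negY]
  linear_combination (u ^ 2 * x) * h1 + h3

end

section

variable {F : Type*} [Field F] (W₁ W₂ : WeierstrassCurve.Affine F) (u r s t : F)

theorem transport_equation
    (h1 : u * W₁.a₁ = W₂.a₁ + 2 * s)
    (h2 : u ^ 2 * W₁.a₂ = W₂.a₂ - s * W₂.a₁ + 3 * r - s ^ 2)
    (h3 : u ^ 3 * W₁.a₃ = W₂.a₃ + r * W₂.a₁ + 2 * t)
    (h4 : u ^ 4 * W₁.a₄ = W₂.a₄ - s * W₂.a₃ + 2 * r * W₂.a₂ - (t + r * s) * W₂.a₁ + 3 * r ^ 2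
      - 2 * s * t)
    (h6 : u ^ 6 * W₁.a₆ = W₂.a₆ + r * W₂.a₄ + r ^ 2 * W₂.a₂ + r ^ 3 - t * W₂.a₃ - t ^ 2
      - r * t * W₂.a₁) {x y : F} (h : W₁.Equation x y) :
    W₂.Equation (u ^ 2 * x + r) (u ^ 3 * y + u ^ 2 * s * x + t) := by
  rw [Affine.equation_iff'] at h ⊢
  rw [transport_poly W₁ W₂ u r s t h1 h2 h3 h4 h6, h, mul_zero]

theorem transport_nonsingular (hu : u ≠ 0)
    (h1 : u * W₁.a₁ = W₂.a₁ + 2 * s)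
    (h2 : u ^ 2 * W₁.a₂ = W₂.a₂ - s * W₂.a₁ + 3 * r - s ^ 2)
    (h3 : u ^ 3 * W₁.a₃ = W₂.a₃ + r * W₂.a₁ + 2 * t)
    (h4 : u ^ 4 * W₁.a₄ = W₂.a₄ - s * W₂.a₃ + 2 * r * W₂.a₂ - (t + r * s) * W₂.a₁ + 3 * r ^ 2
      - 2 * s * t)
    (h6 : u ^ 6 * W₁.a₆ = W₂.a₆ + r * W₂.a₄ + r ^ 2 * W₂.a₂ + r ^ 3 - t * W₂.a₃ - t ^ 2
      - r * t * W₂.a₁) {x y : F} (h : W₁.Nonsingular x y) :
    W₂.Nonsingular (u ^ 2 * x + r) (u ^ 3 * y + u ^ 2 * s * x + t) := by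
  rw [Affine.nonsingular_iff'] at h ⊢
  refine ⟨transport_equation W₁ W₂ u r s t h1 h2 h3 h4 h6 h.1, ?_⟩
  rw [transport_polyX W₁ W₂ u r s t h1 h2 h3 h4, transport_polyY W₁ W₂ u r s t h1 h3]
  by_cases hy : 2 * y + W₁.a₁ * x + W₁.a₃ = 0
  · left
    rw [hy, mul_zero, sub_zero]
    exact mul_ne_zero (pow_ne_zero 4 hu) (h.2.resolve_right (not_not.mpr hy))
  · right
    exact mul_ne_zero (pow_ne_zero 3 hu) hy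

theorem transport_X_inj (hu : u ≠ 0) {x₁ x₂ : F} (h : u ^ 2 * x₁ + r = u ^ 2 * x₂ + r) :
    x₁ = x₂ := by
  have h' : u ^ 2 * (x₁ - x₂) = 0 := by linear_combination h
  rcases mul_eq_zero.mp h' with h'' | h''
  · exact absurd h'' (pow_ne_zero 2 hu)
  · exact sub_eq_zero.mp h''

theorem transport_Y_inj (hu : u ≠ 0) {x y₁ y₂ : F}
    (h : u ^ 3 * y₁ + u ^ 2 * s * x + t = u ^ 3 * y₂ + u ^ 2 * s * x + t) :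
    y₁ = y₂ := by
  have h' : u ^ 3 * (y₁ - y₂) = 0 := by linear_combination h
  rcases mul_eq_zero.mp h' with h'' | h''
  · exact absurd h'' (pow_ne_zero 3 hu)
  · exact sub_eq_zero.mp h''

theorem transport_addX
    (h1 : u * W₁.a₁ = W₂.a₁ + 2 * s)
    (h2 : u ^ 2 * W₁.a₂ = W₂.a₂ - s * W₂.a₁ + 3 * r - s ^ 2) (x₁ x₂ ℓ : F) :
    W₂.addX (u ^ 2 * x₁ + r) (u ^ 2 * x₂ + r) (u * ℓ + s) = u ^ 2 * W₁.addX x₁ x₂ ℓ + r := by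
  simp only [Affine.addX]
  linear_combination (-(u * ℓ)) * h1 + h2

theorem transport_negAddY
    (h1 : u * W₁.a₁ = W₂.a₁ + 2 * s)
    (h2 : u ^ 2 * W₁.a₂ = W₂.a₂ - s * W₂.a₁ + 3 * r - s ^ 2) (x₁ x₂ y₁ ℓ : F) :
    W₂.negAddY (u ^ 2 * x₁ + r) (u ^ 2 * x₂ + r) (u ^ 3 * y₁ + u ^ 2 * s * x₁ + t) (u * ℓ + s)
      = u ^ 3 * W₁.negAddY x₁ x₂ y₁ ℓ + u ^ 2 * s * W₁.addX x₁ x₂ ℓ + t := by
  rw [Affine.negAddY, Affine.negAddY, transport_addX W₁ W₂ u r s h1 h2]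
  ring

theorem transport_addY
    (h1 : u * W₁.a₁ = W₂.a₁ + 2 * s)
    (h2 : u ^ 2 * W₁.a₂ = W₂.a₂ - s * W₂.a₁ + 3 * r - s ^ 2)
    (h3 : u ^ 3 * W₁.a₃ = W₂.a₃ + r * W₂.a₁ + 2 * t) (x₁ x₂ y₁ ℓ : F) :
    W₂.addY (u ^ 2 * x₁ + r) (u ^ 2 * x₂ + r) (u ^ 3 * y₁ + u ^ 2 * s * x₁ + t) (u * ℓ + s)
      = u ^ 3 * W₁.addY x₁ x₂ y₁ ℓ + u ^ 2 * s * W₁.addX x₁ x₂ ℓ + t := by
  rw [Affine.addY, Affine.addY, transport_negAddY W₁ W₂ u r s t h1 h2,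
    transport_addX W₁ W₂ u r s h1 h2, transport_negY W₁ W₂ u r s t h1 h3]

theorem transport_slope [DecidableEq F] (hu : u ≠ 0)
    (h1 : u * W₁.a₁ = W₂.a₁ + 2 * s)
    (h2 : u ^ 2 * W₁.a₂ = W₂.a₂ - s * W₂.a₁ + 3 * r - s ^ 2)
    (h3 : u ^ 3 * W₁.a₃ = W₂.a₃ + r * W₂.a₁ + 2 * t)
    (h4 : u ^ 4 * W₁.a₄ = W₂.a₄ - s * W₂.a₃ + 2 * r * W₂.a₂ - (t + r * s) * W₂.a₁ + 3 * r ^ 2
      - 2 * s * t)
    {x₁ x₂ y₁ y₂ : F} (e₁ : W₁.Equation x₁ y₁) (e₂ : W₁.Equation x₂ y₂)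
    (hxy : ¬(x₁ = x₂ ∧ y₁ = W₁.negY x₂ y₂)) :
    W₂.slope (u ^ 2 * x₁ + r) (u ^ 2 * x₂ + r) (u ^ 3 * y₁ + u ^ 2 * s * x₁ + t)
        (u ^ 3 * y₂ + u ^ 2 * s * x₂ + t)
      = u * W₁.slope x₁ x₂ y₁ y₂ + s := by
  by_cases hx : x₁ = x₂
  · have hy : y₁ ≠ W₁.negY x₂ y₂ := fun h => hxy ⟨hx, h⟩
    obtain rfl := hx
    obtain rfl := Affine.Y_eq_of_Y_ne e₁ e₂ rfl hy
    have hy' : u ^ 3 * y₁ + u ^ 2 * s * x₁ + t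
        ≠ W₂.negY (u ^ 2 * x₁ + r) (u ^ 3 * y₁ + u ^ 2 * s * x₁ + t) := by
      rw [transport_negY W₁ W₂ u r s t h1 h3]
      exact fun h => hy (transport_Y_inj u s t hu h)
    rw [Affine.slope_of_Y_ne rfl hy', Affine.slope_of_Y_ne rfl hy,
      transport_negY W₁ W₂ u r s t h1 h3]
    have hd : y₁ - W₁.negY x₁ y₁ ≠ 0 := sub_ne_zero.mpr hy
    have hd' : (u ^ 3 * y₁ + u ^ 2 * s * x₁ + t) - (u ^ 3 * W₁.negY x₁ y₁ + u ^ 2 * s * x₁ + t)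
        = u ^ 3 * (y₁ - W₁.negY x₁ y₁) := by ring
    have hX := transport_polyX W₁ W₂ u r s t h1 h2 h3 h4 x₁ y₁
    have hN : y₁ - W₁.negY x₁ y₁ = 2 * y₁ + W₁.a₁ * x₁ + W₁.a₃ := by
      simp only [Affine.negY]; ring
    have hu3 : u ^ 3 ≠ 0 := pow_ne_zero 3 hu
    have hD : 2 * y₁ + W₁.a₁ * x₁ + W₁.a₃ ≠ 0 := by rwa [← hN]
    rw [hd', hN, div_eq_iff (mul_ne_zero hu3 hD)]
    have hE : ∀ N d : F, d ≠ 0 →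
        (u * (N / d) + s) * (u ^ 3 * d) = u ^ 4 * N + s * u ^ 3 * d := by
      intro N d hd0
      field_simp
    rw [hE _ _ hD]
    linear_combination (-1 : F) * hX
  · have hx' : u ^ 2 * x₁ + r ≠ u ^ 2 * x₂ + r := fun h => hx (transport_X_inj u r hu h)
    rw [Affine.slope_of_X_ne hx', Affine.slope_of_X_ne hx]
    have hd : x₁ - x₂ ≠ 0 := sub_ne_zero.mpr hx
    have hd' : (u ^ 2 * x₁ + r) - (u ^ 2 * x₂ + r) = u ^ 2 * (x₁ - x₂) := by ring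
    have hu2 : u ^ 2 ≠ 0 := pow_ne_zero 2 hu
    rw [hd']
    field_simp
    ring

/-- The map on points induced by an admissible change of variables. -/
noncomputable def transportFun (hu : u ≠ 0)
    (h1 : u * W₁.a₁ = W₂.a₁ + 2 * s)
    (h2 : u ^ 2 * W₁.a₂ = W₂.a₂ - s * W₂.a₁ + 3 * r - s ^ 2)
    (h3 : u ^ 3 * W₁.a₃ = W₂.a₃ + r * W₂.a₁ + 2 * t)
    (h4 : u ^ 4 * W₁.a₄ = W₂.a₄ - s * W₂.a₃ + 2 * r * W₂.a₂ - (t + r * s) * W₂.a₁ + 3 * r ^ 2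
      - 2 * s * t)
    (h6 : u ^ 6 * W₁.a₆ = W₂.a₆ + r * W₂.a₄ + r ^ 2 * W₂.a₂ + r ^ 3 - t * W₂.a₃ - t ^ 2
      - r * t * W₂.a₁) : W₁.Point → W₂.Point
  | .zero => .zero
  | .some x y h => .some (u ^ 2 * x + r) (u ^ 3 * y + u ^ 2 * s * x + t)
      (transport_nonsingular W₁ W₂ u r s t hu h1 h2 h3 h4 h6 h)

theorem transportFun_zero (hu : u ≠ 0)
    (h1 : u * W₁.a₁ = W₂.a₁ + 2 * s)
    (h2 : u ^ 2 * W₁.a₂ = W₂.a₂ - s * W₂.a₁ + 3 * r - s ^ 2)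
    (h3 : u ^ 3 * W₁.a₃ = W₂.a₃ + r * W₂.a₁ + 2 * t)
    (h4 : u ^ 4 * W₁.a₄ = W₂.a₄ - s * W₂.a₃ + 2 * r * W₂.a₂ - (t + r * s) * W₂.a₁ + 3 * r ^ 2
      - 2 * s * t)
    (h6 : u ^ 6 * W₁.a₆ = W₂.a₆ + r * W₂.a₄ + r ^ 2 * W₂.a₂ + r ^ 3 - t * W₂.a₃ - t ^ 2
      - r * t * W₂.a₁) :
    transportFun W₁ W₂ u r s t hu h1 h2 h3 h4 h6 0 = 0 := rfl

theorem transportFun_some (hu : u ≠ 0)
    (h1 : u * W₁.a₁ = W₂.a₁ + 2 * s)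
    (h2 : u ^ 2 * W₁.a₂ = W₂.a₂ - s * W₂.a₁ + 3 * r - s ^ 2)
    (h3 : u ^ 3 * W₁.a₃ = W₂.a₃ + r * W₂.a₁ + 2 * t)
    (h4 : u ^ 4 * W₁.a₄ = W₂.a₄ - s * W₂.a₃ + 2 * r * W₂.a₂ - (t + r * s) * W₂.a₁ + 3 * r ^ 2
      - 2 * s * t)
    (h6 : u ^ 6 * W₁.a₆ = W₂.a₆ + r * W₂.a₄ + r ^ 2 * W₂.a₂ + r ^ 3 - t * W₂.a₃ - t ^ 2
      - r * t * W₂.a₁) {x y : F} (h : W₁.Nonsingular x y) :
    transportFun W₁ W₂ u r s t hu h1 h2 h3 h4 h6 (.some x y h)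
      = .some (u ^ 2 * x + r) (u ^ 3 * y + u ^ 2 * s * x + t)
        (transport_nonsingular W₁ W₂ u r s t hu h1 h2 h3 h4 h6 h) := rfl

theorem transportFun_add [DecidableEq F] (hu : u ≠ 0)
    (h1 : u * W₁.a₁ = W₂.a₁ + 2 * s)
    (h2 : u ^ 2 * W₁.a₂ = W₂.a₂ - s * W₂.a₁ + 3 * r - s ^ 2)
    (h3 : u ^ 3 * W₁.a₃ = W₂.a₃ + r * W₂.a₁ + 2 * t)
    (h4 : u ^ 4 * W₁.a₄ = W₂.a₄ - s * W₂.a₃ + 2 * r * W₂.a₂ - (t + r * s) * W₂.a₁ + 3 * r ^ 2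
      - 2 * s * t)
    (h6 : u ^ 6 * W₁.a₆ = W₂.a₆ + r * W₂.a₄ + r ^ 2 * W₂.a₂ + r ^ 3 - t * W₂.a₃ - t ^ 2
      - r * t * W₂.a₁) (P Q : W₁.Point) :
    transportFun W₁ W₂ u r s t hu h1 h2 h3 h4 h6 (P + Q)
      = transportFun W₁ W₂ u r s t hu h1 h2 h3 h4 h6 P
        + transportFun W₁ W₂ u r s t hu h1 h2 h3 h4 h6 Q := by
  rcases P with _ | ⟨x₁, y₁, n₁⟩
  · change transportFun W₁ W₂ u r s t hu h1 h2 h3 h4 h6 (0 + Q)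
      = 0 + transportFun W₁ W₂ u r s t hu h1 h2 h3 h4 h6 Q
    rw [zero_add, zero_add]
  rcases Q with _ | ⟨x₂, y₂, n₂⟩
  · change transportFun W₁ W₂ u r s t hu h1 h2 h3 h4 h6 (Affine.Point.some x₁ y₁ n₁ + 0)
      = transportFun W₁ W₂ u r s t hu h1 h2 h3 h4 h6 (Affine.Point.some x₁ y₁ n₁) + 0
    rw [add_zero, add_zero]
  rw [transportFun_some, transportFun_some]
  by_cases hxy : x₁ = x₂ ∧ y₁ = W₁.negY x₂ y₂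
  · rw [Affine.Point.add_of_Y_eq hxy.1 hxy.2, transportFun_zero]
    rw [Affine.Point.add_of_Y_eq (by rw [hxy.1])
      (by rw [transport_negY W₁ W₂ u r s t h1 h3, hxy.2, hxy.1])]
  · have hxy' : ¬(u ^ 2 * x₁ + r = u ^ 2 * x₂ + r ∧ u ^ 3 * y₁ + u ^ 2 * s * x₁ + t
        = W₂.negY (u ^ 2 * x₂ + r) (u ^ 3 * y₂ + u ^ 2 * s * x₂ + t)) := by
      rintro ⟨hX, hY⟩
      have hx : x₁ = x₂ := transport_X_inj u r hu hX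
      refine hxy ⟨hx, ?_⟩
      rw [transport_negY W₁ W₂ u r s t h1 h3, hx] at hY
      exact transport_Y_inj u s t hu hY
    rw [Affine.Point.add_some hxy, Affine.Point.add_some hxy', transportFun_some]
    have hs := transport_slope W₁ W₂ u r s t hu h1 h2 h3 h4 n₁.1 n₂.1 hxy
    simp only [Affine.Point.some.injEq]
    rw [hs]
    exact ⟨(transport_addX W₁ W₂ u r s h1 h2 _ _ _).symm,
      (transport_addY W₁ W₂ u r s t h1 h2 h3 _ _ _ _).symm⟩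

theorem transportFun_injective (hu : u ≠ 0)
    (h1 : u * W₁.a₁ = W₂.a₁ + 2 * s)
    (h2 : u ^ 2 * W₁.a₂ = W₂.a₂ - s * W₂.a₁ + 3 * r - s ^ 2)
    (h3 : u ^ 3 * W₁.a₃ = W₂.a₃ + r * W₂.a₁ + 2 * t)
    (h4 : u ^ 4 * W₁.a₄ = W₂.a₄ - s * W₂.a₃ + 2 * r * W₂.a₂ - (t + r * s) * W₂.a₁ + 3 * r ^ 2
      - 2 * s * t)
    (h6 : u ^ 6 * W₁.a₆ = W₂.a₆ + r * W₂.a₄ + r ^ 2 * W₂.a₂ + r ^ 3 - t * W₂.a₃ - t ^ 2
      - r * t * W₂.a₁) :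
    Function.Injective (transportFun W₁ W₂ u r s t hu h1 h2 h3 h4 h6) := by
  intro P Q hPQ
  rcases P with _ | ⟨x₁, y₁, n₁⟩ <;> rcases Q with _ | ⟨x₂, y₂, n₂⟩
  · rfl
  · simp [transportFun] at hPQ
  · simp [transportFun] at hPQ
  · simp only [transportFun, Affine.Point.some.injEq] at hPQ
    obtain ⟨hX, hY⟩ := hPQ
    have hx : x₁ = x₂ := transport_X_inj u r hu hX
    subst hx
    have hy : y₁ = y₂ := transport_Y_inj u s t hu hY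
    subst hy
    rfl

/-- An admissible change of variables `(x, y) ↦ (u²x + r, u³y + u²sx + t)` between two
Weierstrass curves over a field induces an injective group homomorphism on points. -/
theorem exists_pointHom_of_variableChange {F : Type*} [Field F] [DecidableEq F]
    (W₁ W₂ : WeierstrassCurve.Affine F) (u r s t : F) (hu : u ≠ 0)
    (h1 : u * W₁.a₁ = W₂.a₁ + 2 * s)
    (h2 : u ^ 2 * W₁.a₂ = W₂.a₂ - s * W₂.a₁ + 3 * r - s ^ 2)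
    (h3 : u ^ 3 * W₁.a₃ = W₂.a₃ + r * W₂.a₁ + 2 * t)
    (h4 : u ^ 4 * W₁.a₄ = W₂.a₄ - s * W₂.a₃ + 2 * r * W₂.a₂ - (t + r * s) * W₂.a₁ + 3 * r ^ 2 - 2 * s * t)
    (h6 : u ^ 6 * W₁.a₆ = W₂.a₆ + r * W₂.a₄ + r ^ 2 * W₂.a₂ + r ^ 3 - t * W₂.a₃ - t ^ 2 - r * t * W₂.a₁) :
    ∃ ψ : W₁.Point →+ W₂.Point, Function.Injective ψ ∧
      ∀ (x y : F) (h : W₁.Nonsingular x y), ∃ h' : W₂.Nonsingular (u ^ 2 * x + r) (u ^ 3 * y + u ^ 2 * s * x + t),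
        ψ (.some x y h) = .some (u ^ 2 * x + r) (u ^ 3 * y + u ^ 2 * s * x + t) h' := by
  refine ⟨AddMonoidHom.mk' (transportFun W₁ W₂ u r s t hu h1 h2 h3 h4 h6)
    (transportFun_add W₁ W₂ u r s t hu h1 h2 h3 h4 h6),
    transportFun_injective W₁ W₂ u r s t hu h1 h2 h3 h4 h6, fun x y h => ⟨_, rfl⟩⟩

end

end Fermat.Agent.S05
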