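import Fermat.Prelude.Def_FLTPrelim_Ramification
import Fermat.Agent.S05.Core10
import Fermat.Agent.S05.Transport
import Fermat.Agent.S05.Inertia

set_option autoImplicit false

namespace Fermat.Agent.S05

open WeierstrassCurve WeierstrassCurve.Affine

/-- The rational model `Y² = X³ + a₂X² + a₄X`. -/
def modelCurve (a₂ a₄ : ℤ) : WeierstrassCurve ℚ := ⟨0, a₂, 0, a₄, 0⟩

local notation "Kb" => AlgebraicClosure ℚ

theorem unram_of_model (E : WeierstrassCurve ℚ) (A : ValuationSubring Kb)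
    (σ : Kb ≃ₐ[ℚ] Kb) (hσ : σ ∈ A.inertiaSubgroupIn ℚ)
    {p : ℕ} (hp : p.Prime) (hp2 : p ≠ 2) (hpv : A.valuation (p : Kb) = 1)
    (h2 : A.valuation (2 : Kb) = 1)
    (a₂ a₄ r : ℤ) (hE1 : E.a₁ = 1) (hE3 : E.a₃ = 0) (hE6 : E.a₆ = 0)
    (hE2 : 4 * E.a₂ = (a₂ : ℚ) + 3 * r - 1)
    (hE4 : 16 * E.a₄ = (a₄ : ℚ) + 2 * r * a₂ + 3 * r ^ 2)
    (hr : (r : ℚ) * a₄ + r ^ 2 * a₂ + r ^ 3 = 0)
    (hred : A.valuation ((a₄ : Kb) ^ 2 * ((a₂ : Kb) ^ 2 - 4 * a₄)) = 1 ∨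
        (A.valuation (a₂ : Kb) = 1 ∧ ∃ b₀ u : ℤ, a₄ = u * b₀ ^ p ∧
          A.valuation (u : Kb) = 1 ∧ A.valuation (b₀ : Kb) < 1 ∧ b₀ ≠ 0))
    (Q : (E⁄Kb).Point) (hQ : p • Q = 0) : σ • Q = Q := by
  obtain ⟨hσ1, hσ1', hσ2⟩ := inertia_props A σ hσ
  have c1 : (E⁄Kb).a₁ = 1 := by simp [hE1]
  have c3 : (E⁄Kb).a₃ = 0 := by simp [hE3]
  have c6 : (E⁄Kb).a₆ = 0 := by simp [hE6]
  have d1 : ((modelCurve a₂ a₄)⁄Kb).a₁ = 0 := by simp [modelCurve]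
  have d2 : ((modelCurve a₂ a₄)⁄Kb).a₂ = (a₂ : Kb) := by simp [modelCurve]
  have d3 : ((modelCurve a₂ a₄)⁄Kb).a₃ = 0 := by simp [modelCurve]
  have d4 : ((modelCurve a₂ a₄)⁄Kb).a₄ = (a₄ : Kb) := by simp [modelCurve]
  have d6 : ((modelCurve a₂ a₄)⁄Kb).a₆ = 0 := by simp [modelCurve]
  have c2 : 4 * (E⁄Kb).a₂ = (a₂ : Kb) + 3 * r - 1 := by
    have := congrArg (algebraMap ℚ Kb) hE2
    simpa using this
  have c4 : 16 * (E⁄Kb).a₄ = (a₄ : Kb) + 2 * r * a₂ + 3 * r ^ 2 := by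
    have := congrArg (algebraMap ℚ Kb) hE4
    simpa using this
  have cr : (r : Kb) * a₄ + r ^ 2 * a₂ + r ^ 3 = 0 := by
    have := congrArg (algebraMap ℚ Kb) hr
    simpa using this
  have h1 : (2 : Kb) * (E⁄Kb).a₁ = ((modelCurve a₂ a₄)⁄Kb).a₁ + 2 * 1 := by rw [c1, d1]; ring
  have h2' : (2 : Kb) ^ 2 * (E⁄Kb).a₂ = ((modelCurve a₂ a₄)⁄Kb).a₂
      - 1 * ((modelCurve a₂ a₄)⁄Kb).a₁ + 3 * (r : Kb) - 1 ^ 2 := by
    rw [d1, d2]; linear_combination c2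
  have h3 : (2 : Kb) ^ 3 * (E⁄Kb).a₃ = ((modelCurve a₂ a₄)⁄Kb).a₃
      + (r : Kb) * ((modelCurve a₂ a₄)⁄Kb).a₁ + 2 * 0 := by rw [c3, d1, d3]; ring
  have h4 : (2 : Kb) ^ 4 * (E⁄Kb).a₄ = ((modelCurve a₂ a₄)⁄Kb).a₄
      - 1 * ((modelCurve a₂ a₄)⁄Kb).a₃ + 2 * (r : Kb) * ((modelCurve a₂ a₄)⁄Kb).a₂
      - (0 + (r : Kb) * 1) * ((modelCurve a₂ a₄)⁄Kb).a₁ + 3 * (r : Kb) ^ 2 - 2 * 1 * 0 := by
    rw [d1, d2, d3, d4]; linear_combination c4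
  have h6 : (2 : Kb) ^ 6 * (E⁄Kb).a₆ = ((modelCurve a₂ a₄)⁄Kb).a₆
      + (r : Kb) * ((modelCurve a₂ a₄)⁄Kb).a₄ + (r : Kb) ^ 2 * ((modelCurve a₂ a₄)⁄Kb).a₂
      + (r : Kb) ^ 3 - 0 * ((modelCurve a₂ a₄)⁄Kb).a₃ - 0 ^ 2
      - (r : Kb) * 0 * ((modelCurve a₂ a₄)⁄Kb).a₁ := by
    rw [c6, d1, d2, d3, d4, d6]; linear_combination -cr
  obtain ⟨ψ, hψinj, hψ⟩ := exists_pointHom_of_variableChange (E⁄Kb) ((modelCurve a₂ a₄)⁄Kb)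
    2 (r : Kb) 1 0 two_ne_zero h1 h2' h3 h4 h6
  have s2 : σ (2 : Kb) = 2 := map_ofNat σ 2
  have sr : σ (r : Kb) = r := map_intCast σ r
  have hτ : ∀ (x y : Kb) (h : ((modelCurve a₂ a₄)⁄Kb).Nonsingular x y),
      ∃ h' : ((modelCurve a₂ a₄)⁄Kb).Nonsingular ((σ.toAlgHom : Kb →+* Kb) x)
        ((σ.toAlgHom : Kb →+* Kb) y),
        Point.map (W' := modelCurve a₂ a₄) σ.toAlgHom (Point.some x y h)
          = Point.some ((σ.toAlgHom : Kb →+* Kb) x) ((σ.toAlgHom : Kb →+* Kb) y) h' :=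
    fun x y h => ⟨_, Point.map_some (W' := modelCurve a₂ a₄) σ.toAlgHom h⟩
  have hW : Special ((modelCurve a₂ a₄)⁄Kb) := ⟨d1, d3, d6⟩
  have hsq : ∀ w : Kb, ∃ g : Kb, g ^ 2 = w := fun w =>
    IsAlgClosed.exists_pow_nat_eq w (by norm_num)
  have hred' : A.valuation (((modelCurve a₂ a₄)⁄Kb).a₄ ^ 2 * (((modelCurve a₂ a₄)⁄Kb).a₂ ^ 2
        - 4 * ((modelCurve a₂ a₄)⁄Kb).a₄)) = 1 ∨
      (A.valuation ((modelCurve a₂ a₄)⁄Kb).a₂ = 1 ∧ ∃ b₀ u : Kb,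
        ((modelCurve a₂ a₄)⁄Kb).a₄ = u * b₀ ^ p ∧ A.valuation u = 1 ∧
        A.valuation b₀ < 1 ∧ b₀ ≠ 0 ∧ (σ.toAlgHom : Kb →+* Kb) b₀ = b₀) := by
    rw [d2, d4]
    rcases hred with h | ⟨ha, b₀, u, hbu, hu, hb₀, hb₀0⟩
    · exact Or.inl h
    · refine Or.inr ⟨ha, (b₀ : Kb), (u : Kb), ?_, hu, hb₀, ?_, ?_⟩
      · rw [hbu, Int.cast_mul, Int.cast_pow]
      · exact_mod_cast hb₀0
      · exact map_intCast σ b₀
  have key : ∀ R : ((modelCurve a₂ a₄)⁄Kb).Point, p • R = 0 →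
      Point.map (W' := modelCurve a₂ a₄) σ.toAlgHom R = R := fun R hR =>
    core A.valuation (σ.toAlgHom : Kb →+* Kb) (Point.map (W' := modelCurve a₂ a₄) σ.toAlgHom) hW
      (by rw [d2]; exact inertia_valuation_intCast_le_one A a₂)
      (by rw [d4]; exact inertia_valuation_intCast_le_one A a₄) h2 hp hp2 hpv
      (fun x hx => hσ1' x hx) (fun x hx => hσ1 x hx) (fun x hx => hσ2 x hx) hτ
      (by rw [d2]; exact map_intCast σ a₂) (by rw [d4]; exact map_intCast σ a₄) hsq hred' R hR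
  have comm : ∀ R : (E⁄Kb).Point,
      ψ (σ • R) = Point.map (W' := modelCurve a₂ a₄) σ.toAlgHom (ψ R) := by
    rintro (_ | ⟨x, y, h⟩)
    · have e0 : σ • (0 : (E⁄Kb).Point) = 0 := rfl
      change ψ (σ • (0 : (E⁄Kb).Point)) = Point.map (W' := modelCurve a₂ a₄) σ.toAlgHom (ψ 0)
      rw [e0, map_zero, map_zero]
    · obtain ⟨ha, e⟩ := hψ x y h
      have e1 : σ • (Point.some x y h : (E⁄Kb).Point) = Point.some (σ x) (σ y)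
          ((Affine.baseChange_nonsingular E σ.toAlgHom.injective ..).mpr h) := rfl
      obtain ⟨hb, e2⟩ := hψ (σ x) (σ y)
        ((Affine.baseChange_nonsingular E σ.toAlgHom.injective ..).mpr h)
      obtain ⟨hc, e3⟩ := hτ _ _ ha
      rw [e1, e2, e, e3]
      obtain ⟨hd, e4⟩ := some_congr (W := (modelCurve a₂ a₄)⁄Kb) (x := 2 ^ 2 * σ x + (r : Kb))
        (x' := (σ.toAlgHom : Kb →+* Kb) (2 ^ 2 * x + (r : Kb)))
        (y := 2 ^ 3 * σ y + 2 ^ 2 * 1 * σ x + 0)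
        (y' := (σ.toAlgHom : Kb →+* Kb) (2 ^ 3 * y + 2 ^ 2 * 1 * x + 0))
        (by
          change _ = σ (2 ^ 2 * x + (r : Kb))
          rw [map_add, map_mul, map_pow, s2, sr])
        (by
          change _ = σ (2 ^ 3 * y + 2 ^ 2 * 1 * x + 0)
          rw [map_add, map_add, map_mul, map_mul, map_mul, map_pow, map_pow, s2, map_one,
            map_zero]) hb
      exact e4
  have hψQ : p • ψ Q = 0 := by rw [← map_nsmul, hQ, map_zero]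
  apply hψinj
  rw [comm, key _ hψQ]

end Fermat.Agent.S05
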