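import Mathlib
import Fermat.Prelude.Def_FLTPrelim_Ramification
import Fermat.Agent.S05.Inertia

set_option autoImplicit false

namespace Fermat.Agent.S05

theorem freyModel_not_dvd_both {q : ℕ} (hq : q.Prime) {x y : ℤ} (h : gcd x y = 1) :
    ¬((q : ℤ) ∣ x ∧ (q : ℤ) ∣ y) := by
  rintro ⟨h1, h2⟩
  have hprime : Prime (q : ℤ) := Nat.prime_iff_prime_int.mp hq
  have h3 : (q : ℤ) ∣ gcd x y := dvd_gcd h1 h2
  rw [h] at h3
  exact hprime.not_dvd_one h3

theorem frey_model (P : FreyPackage) {q : ℕ} (hq : q.Prime)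
    (A : ValuationSubring (AlgebraicClosure ℚ)) (hA : A.LiesOverPrime q) :
    ∃ (a₂ a₄ r : ℤ),
      (4 * P.freyCurve.a₂ = (a₂ : ℚ) + 3 * r - 1) ∧
      (16 * P.freyCurve.a₄ = (a₄ : ℚ) + 2 * r * a₂ + 3 * r ^ 2) ∧
      ((r : ℚ) * a₄ + r ^ 2 * a₂ + r ^ 3 = 0) ∧
      (A.valuation ((a₄ : AlgebraicClosure ℚ) ^ 2 * ((a₂ : AlgebraicClosure ℚ) ^ 2 - 4 * a₄)) = 1 ∨
        (A.valuation (a₂ : AlgebraicClosure ℚ) = 1 ∧ ∃ b₀ u : ℤ, a₄ = u * b₀ ^ P.p ∧
          A.valuation (u : AlgebraicClosure ℚ) = 1 ∧ A.valuation (b₀ : AlgebraicClosure ℚ) < 1 ∧ b₀ ≠ 0)) := by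
  have hprime : Prime (q : ℤ) := Nat.prime_iff_prime_int.mp hq
  have hF : P.a ^ P.p + P.b ^ P.p = P.c ^ P.p := P.hFLT
  have hFQ : (P.a : ℚ) ^ P.p + (P.b : ℚ) ^ P.p = (P.c : ℚ) ^ P.p := by exact_mod_cast hF
  have hab := freyModel_not_dvd_both hq P.hgcdab
  have hac := freyModel_not_dvd_both hq P.hgcdac
  have hbc := freyModel_not_dvd_both hq P.hgcdbc
  have hpow : ∀ x : ℤ, (q : ℤ) ∣ x ^ P.p → (q : ℤ) ∣ x := fun x h => hprime.dvd_of_dvd_pow h
  have hpow' : ∀ x : ℤ, (q : ℤ) ∣ x → (q : ℤ) ∣ x ^ P.p := fun x h => dvd_pow h P.hp0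
  have e2 : 4 * P.freyCurve.a₂ = (P.b : ℚ) ^ P.p - 1 - (P.a : ℚ) ^ P.p := by
    change 4 * (((P.b : ℚ) ^ P.p - 1 - (P.a : ℚ) ^ P.p) / 4) = _
    ring
  have e4 : 16 * P.freyCurve.a₄ = -((P.a : ℚ) ^ P.p) * (P.b : ℚ) ^ P.p := by
    change 16 * (-((P.a : ℚ) ^ P.p) * (P.b : ℚ) ^ P.p / 16) = _
    ring
  by_cases hc : (q : ℤ) ∣ P.c
  · -- multiplicative case, `q ∣ c`
    have hna : ¬(q : ℤ) ∣ P.a := fun h => hac ⟨h, hc⟩
    refine ⟨P.a ^ P.p + P.c ^ P.p, P.a ^ P.p * P.c ^ P.p, -(P.a ^ P.p), ?_, ?_, ?_,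
      Or.inr ⟨?_, P.c, P.a ^ P.p, rfl, ?_, ?_, P.hc0⟩⟩
    · rw [e2]; push_cast; linear_combination hFQ
    · rw [e4]; push_cast; linear_combination (-((P.a : ℚ) ^ P.p)) * hFQ
    · push_cast; ring
    · apply valuation_intCast_eq_one A hq hA
      intro h
      have h' : (q : ℤ) ∣ P.a ^ P.p := (dvd_add_left (hpow' _ hc)).mp h
      exact hna (hpow _ h')
    · exact valuation_intCast_eq_one A hq hA _ (fun h => hna (hpow _ h))
    · exact valuation_intCast_lt_one A hA _ hc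
  · by_cases ha : (q : ℤ) ∣ P.a
    · -- multiplicative case, `q ∣ a`
      have hnb : ¬(q : ℤ) ∣ P.b := fun h => hab ⟨ha, h⟩
      refine ⟨P.b ^ P.p - P.a ^ P.p, -(P.a ^ P.p) * P.b ^ P.p, 0, ?_, ?_, ?_,
        Or.inr ⟨?_, P.a, -(P.b ^ P.p), by ring, ?_, ?_, P.ha0⟩⟩
      · rw [e2]; push_cast; ring
      · rw [e4]; push_cast; ring
      · push_cast; ring
      · apply valuation_intCast_eq_one A hq hA
        intro h
        have h' : (q : ℤ) ∣ P.b ^ P.p := (dvd_sub_left (hpow' _ ha)).mp h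
        exact hnb (hpow _ h')
      · exact valuation_intCast_eq_one A hq hA _
          (fun h => hnb (hpow _ ((dvd_neg).mp h)))
      · exact valuation_intCast_lt_one A hA _ ha
    · by_cases hb : (q : ℤ) ∣ P.b
      · -- multiplicative case, `q ∣ b`
        refine ⟨P.b ^ P.p - P.a ^ P.p, -(P.a ^ P.p) * P.b ^ P.p, 0, ?_, ?_, ?_,
          Or.inr ⟨?_, P.b, -(P.a ^ P.p), by ring, ?_, ?_, P.hb0⟩⟩
        · rw [e2]; push_cast; ring
        · rw [e4]; push_cast; ring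
        · push_cast; ring
        · apply valuation_intCast_eq_one A hq hA
          intro h
          have h' : (q : ℤ) ∣ P.a ^ P.p := (dvd_sub_right (hpow' _ hb)).mp h
          exact ha (hpow _ h')
        · exact valuation_intCast_eq_one A hq hA _
            (fun h => ha (hpow _ ((dvd_neg).mp h)))
        · exact valuation_intCast_lt_one A hA _ hb
      · -- good reduction case
        refine ⟨P.b ^ P.p - P.a ^ P.p, -(P.a ^ P.p) * P.b ^ P.p, 0, ?_, ?_, ?_, Or.inl ?_⟩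
        · rw [e2]; push_cast; ring
        · rw [e4]; push_cast; ring
        · push_cast; ring
        · have hcast : (((-(P.a ^ P.p) * P.b ^ P.p : ℤ) : AlgebraicClosure ℚ)) ^ 2 *
              ((((P.b ^ P.p - P.a ^ P.p : ℤ) : AlgebraicClosure ℚ)) ^ 2
                - 4 * ((-(P.a ^ P.p) * P.b ^ P.p : ℤ) : AlgebraicClosure ℚ))
              = (((P.a ^ P.p * P.b ^ P.p * P.c ^ P.p) ^ 2 : ℤ) : AlgebraicClosure ℚ) := by
            rw [← hF]
            push_cast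
            ring
          rw [hcast]
          apply valuation_intCast_eq_one A hq hA
          intro h
          have h1 := hprime.dvd_of_dvd_pow h
          rcases hprime.dvd_mul.mp h1 with h2 | h2
          · rcases hprime.dvd_mul.mp h2 with h3 | h3
            · exact ha (hpow _ h3)
            · exact hb (hpow _ h3)
          · exact hc (hpow _ h2)

end Fermat.Agent.S05
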