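import Mathlib

set_option autoImplicit false
set_option linter.unusedSectionVars false

namespace Fermat.Agent.S05

open WeierstrassCurve WeierstrassCurve.Affine

variable {K : Type*} [Field K] (W : WeierstrassCurve.Affine K)

/-- The curve has the shape `Y² = X³ + a₂X² + a₄X`. -/
def Special : Prop := W.a₁ = 0 ∧ W.a₃ = 0 ∧ W.a₆ = 0

variable {W}

theorem eqn_iff (hW : Special W) (x y : K) :
    W.Equation x y ↔ y ^ 2 = x ^ 3 + W.a₂ * x ^ 2 + W.a₄ * x := by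
  obtain ⟨h1, h3, h6⟩ := hW
  rw [Affine.equation_iff, h1, h3, h6]
  constructor <;> intro h <;> linear_combination h

theorem eqn_of_nonsingular (hW : Special W) {x y : K} (h : W.Nonsingular x y) :
    y ^ 2 = x ^ 3 + W.a₂ * x ^ 2 + W.a₄ * x :=
  (eqn_iff hW x y).1 h.1

theorem negY_eq (hW : Special W) (x y : K) : W.negY x y = -y := by
  obtain ⟨h1, h3, h6⟩ := hW
  simp [Affine.negY, h1, h3]

theorem some_congr {x x' y y' : K} (hx : x = x') (hy : y = y') (h : W.Nonsingular x y) :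
    ∃ h' : W.Nonsingular x' y', Point.some x y h = Point.some x' y' h' := by
  subst hx hy
  exact ⟨h, rfl⟩

variable [DecidableEq K]

theorem neg_some_eq (hW : Special W) {x y : K} (h : W.Nonsingular x y) :
    ∃ h' : W.Nonsingular x (-y), -(Point.some x y h) = Point.some x (-y) h' := by
  rw [Point.neg_some]
  exact some_congr rfl (negY_eq hW x y) _

/-- The addition formulas on `Y² = X³ + a₂X² + a₄X` in the form we need. -/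
theorem add_formula (hW : Special W) {x₁ y₁ x₂ y₂ : K} (h₁ : W.Nonsingular x₁ y₁)
    (h₂ : W.Nonsingular x₂ y₂) (hne : ¬(x₁ = x₂ ∧ y₁ = -y₂)) :
    ∃ (x₃ y₃ : K) (h₃ : W.Nonsingular x₃ y₃),
      Point.some x₁ y₁ h₁ + Point.some x₂ y₂ h₂ = Point.some x₃ y₃ h₃ ∧
      x₃ * (x₂ * y₁ + x₁ * y₂) ^ 2 = x₁ * x₂ * (x₁ * x₂ - W.a₄) ^ 2 ∧
      x₃ * (x₁ * x₂ * (x₁ - x₂) ^ 2) = (x₂ * y₁ - x₁ * y₂) ^ 2 ∧
      (x₁ ≠ x₂ → x₃ = ((y₁ - y₂) / (x₁ - x₂)) ^ 2 - W.a₂ - x₁ - x₂) ∧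
      (x₁ = x₂ → x₃ * (4 * y₁ ^ 2) = (x₁ ^ 2 - W.a₄) ^ 2) := by
  have e₁ := eqn_of_nonsingular hW h₁
  have e₂ := eqn_of_nonsingular hW h₂
  have hxy : ¬(x₁ = x₂ ∧ y₁ = W.negY x₂ y₂) := by rwa [negY_eq hW]
  refine ⟨_, _, _, Point.add_some hxy, ?_⟩
  obtain ⟨h1, h3, h6⟩ := hW
  by_cases hx : x₁ = x₂
  · subst hx
    have hy : y₁ ≠ W.negY x₁ y₂ := fun h => hxy ⟨rfl, h⟩
    have hy' : y₁ ≠ -y₂ := fun h => hne ⟨rfl, h⟩
    have hyy : y₁ = y₂ := by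
      have : (y₁ - y₂) * (y₁ + y₂) = 0 := by linear_combination e₁ - e₂
      rcases mul_eq_zero.1 this with h | h
      · exact sub_eq_zero.1 h
      · exact absurd (eq_neg_of_add_eq_zero_left h) hy'
    subst hyy
    have hy2 : y₁ - W.negY x₁ y₁ ≠ 0 := sub_ne_zero.2 hy
    have hsl : W.slope x₁ x₁ y₁ y₁ =
        (3 * x₁ ^ 2 + 2 * W.a₂ * x₁ + W.a₄ - W.a₁ * y₁) / (y₁ - W.negY x₁ y₁) :=
      Affine.slope_of_Y_ne rfl hy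
    have hneg : W.negY x₁ y₁ = -y₁ := by simp [Affine.negY, h1, h3]
    rw [hneg] at hy2 hsl
    have hy0 : y₁ ≠ 0 := by
      intro h0; apply hy2; rw [h0]; ring
    have h2y : (2 : K) * y₁ ≠ 0 := by
      intro h0; apply hy2; linear_combination h0
    have h2 : (2 : K) ≠ 0 := fun h0 => h2y (by rw [h0, zero_mul])
    rw [h1] at hsl
    have hX : W.addX x₁ x₁ (W.slope x₁ x₁ y₁ y₁) * (4 * y₁ ^ 2) = (x₁ ^ 2 - W.a₄) ^ 2 := by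
      have this : y₁ - -y₁ = 2 * y₁ := by ring
      rw [this] at hsl
      have hl : W.slope x₁ x₁ y₁ y₁ * (2 * y₁) = 3 * x₁ ^ 2 + 2 * W.a₂ * x₁ + W.a₄ := by
        rw [hsl]; field_simp; ring
      have key : (3 * x₁ ^ 2 + 2 * W.a₂ * x₁ + W.a₄) ^ 2 - (W.a₂ + 2 * x₁) * (4 * y₁ ^ 2)
          = (x₁ ^ 2 - W.a₄) ^ 2 := by
        grind
      rw [Affine.addX, h1, ← key, ← hl]
      ring
    refine ⟨?_, ?_, fun h => absurd rfl h, fun _ => hX⟩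
    · have : W.addX x₁ x₁ (W.slope x₁ x₁ y₁ y₁) * (x₁ * y₁ + x₁ * y₁) ^ 2
          = x₁ ^ 2 * (W.addX x₁ x₁ (W.slope x₁ x₁ y₁ y₁) * (4 * y₁ ^ 2)) := by ring
      rw [this, hX]; ring
    · ring
  · have hsl : W.slope x₁ x₂ y₁ y₂ = (y₁ - y₂) / (x₁ - x₂) := Affine.slope_of_X_ne hx
    have hd : x₁ - x₂ ≠ 0 := sub_ne_zero.2 hx
    have hX : W.addX x₁ x₂ (W.slope x₁ x₂ y₁ y₂) =
        ((y₁ - y₂) / (x₁ - x₂)) ^ 2 - W.a₂ - x₁ - x₂ := by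
      rw [Affine.addX, hsl, h1]; ring
    refine ⟨?_, ?_, fun _ => hX, fun h => absurd h hx⟩
    · rw [hX]
      have key : ((y₁ - y₂) ^ 2 - (W.a₂ + x₁ + x₂) * (x₁ - x₂) ^ 2) * (x₂ * y₁ + x₁ * y₂) ^ 2
          = x₁ * x₂ * (x₁ * x₂ - W.a₄) ^ 2 * (x₁ - x₂) ^ 2 := by
        grind
      field_simp
      linear_combination key
    · rw [hX]
      have key : ((y₁ - y₂) ^ 2 - (W.a₂ + x₁ + x₂) * (x₁ - x₂) ^ 2) * (x₁ * x₂)
          = (x₂ * y₁ - x₁ * y₂) ^ 2 := by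
        grind
      field_simp
      linear_combination key

/-- The subtraction formulas. -/
theorem sub_formula (hW : Special W) {x₁ y₁ x₂ y₂ : K} (h₁ : W.Nonsingular x₁ y₁)
    (h₂ : W.Nonsingular x₂ y₂) (hne : ¬(x₁ = x₂ ∧ y₁ = y₂)) :
    ∃ (x₃ y₃ : K) (h₃ : W.Nonsingular x₃ y₃),
      Point.some x₁ y₁ h₁ - Point.some x₂ y₂ h₂ = Point.some x₃ y₃ h₃ ∧
      x₃ * (x₂ * y₁ - x₁ * y₂) ^ 2 = x₁ * x₂ * (x₁ * x₂ - W.a₄) ^ 2 ∧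
      x₃ * (x₁ * x₂ * (x₁ - x₂) ^ 2) = (x₂ * y₁ + x₁ * y₂) ^ 2 ∧
      (x₁ ≠ x₂ → x₃ = ((y₁ + y₂) / (x₁ - x₂)) ^ 2 - W.a₂ - x₁ - x₂) ∧
      (x₁ = x₂ → x₃ * (4 * y₁ ^ 2) = (x₁ ^ 2 - W.a₄) ^ 2) := by
  obtain ⟨h₂', hneg⟩ := neg_some_eq hW h₂
  have hne' : ¬(x₁ = x₂ ∧ y₁ = - -y₂) := by rwa [neg_neg]
  obtain ⟨x₃, y₃, h₃, hadd, hN, hM, hch, hdb⟩ := add_formula hW h₁ h₂' hne'
  refine ⟨x₃, y₃, h₃, ?_, ?_, ?_, ?_, hdb⟩
  · rw [sub_eq_add_neg, hneg, hadd]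
  · rw [← hN]; ring
  · rw [hM]; ring
  · intro hx
    rw [hch hx]; ring

end Fermat.Agent.S05
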