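import Fermat.Agent.S05.Ord
import Fermat.Agent.S05.Formulas

set_option autoImplicit false

namespace Fermat.Agent.S05

open WeierstrassCurve WeierstrassCurve.Affine

variable {K : Type*} [Field K] {Γ₀ : Type*} [LinearOrderedCommGroupWithZero Γ₀]
  (v : Valuation K Γ₀)

/-! ### small / integral bookkeeping -/

theorem sm_add {x y : K} (hx : v x < 1) (hy : v y < 1) : v (x + y) < 1 :=
  Valuation.map_add_lt v hx hy

theorem sm_neg {x : K} (hx : v x < 1) : v (-x) < 1 := by rwa [Valuation.map_neg]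

theorem sm_sub {x y : K} (hx : v x < 1) (hy : v y < 1) : v (x - y) < 1 :=
  Valuation.map_sub_lt v hx hy

theorem int_add {x y : K} (hx : v x ≤ 1) (hy : v y ≤ 1) : v (x + y) ≤ 1 :=
  Valuation.map_add_le v hx hy

theorem int_neg {x : K} (hx : v x ≤ 1) : v (-x) ≤ 1 := by rwa [Valuation.map_neg]

theorem int_sub {x y : K} (hx : v x ≤ 1) (hy : v y ≤ 1) : v (x - y) ≤ 1 :=
  Valuation.map_sub_le v hx hy

theorem int_mul {x y : K} (hx : v x ≤ 1) (hy : v y ≤ 1) : v (x * y) ≤ 1 := by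
  rw [map_mul]; exact mul_le_one' hx hy

theorem int_pow {x : K} (hx : v x ≤ 1) (n : ℕ) : v (x ^ n) ≤ 1 := by
  rw [map_pow]; exact pow_le_one' hx n

theorem sm_mul_int {x y : K} (hx : v x < 1) (hy : v y ≤ 1) : v (x * y) < 1 := by
  rw [map_mul]; exact lt_of_le_of_lt (mul_le_of_le_one_right' hy) hx

theorem int_mul_sm {x y : K} (hx : v x ≤ 1) (hy : v y < 1) : v (x * y) < 1 := by
  rw [map_mul]; exact lt_of_le_of_lt (mul_le_of_le_one_left' hx) hy

theorem sm_pow {x : K} (hx : v x < 1) {n : ℕ} (hn : n ≠ 0) : v (x ^ n) < 1 := by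
  rw [map_pow]; exact pow_lt_one₀ zero_le hx hn

theorem unit_add_sm {x y : K} (hx : v x = 1) (hy : v y < 1) : v (x + y) = 1 := by
  rw [Valuation.map_add_eq_of_lt_left v (by rw [hx]; exact hy), hx]

theorem unit_sub_sm {x y : K} (hx : v x = 1) (hy : v y < 1) : v (x - y) = 1 := by
  rw [sub_eq_add_neg]; exact unit_add_sm v hx (sm_neg v hy)

theorem unit_mul {x y : K} (hx : v x = 1) (hy : v y = 1) : v (x * y) = 1 := by
  rw [map_mul, hx, hy, one_mul]

theorem unit_pow {x : K} (hx : v x = 1) (n : ℕ) : v (x ^ n) = 1 := by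
  rw [map_pow, hx, one_pow]

theorem unit_inv {x : K} (hx : v x = 1) : v x⁻¹ = 1 := by
  rw [map_inv₀, hx, inv_one]

theorem int_natCast (n : ℕ) : v (n : K) ≤ 1 := by
  induction n with
  | zero => simp
  | succ n ih => rw [Nat.cast_succ]; exact int_add v ih (by simp)

theorem sm_of_sq_sm {x : K} (hx : v (x ^ 2) < 1) : v x < 1 := by
  rw [map_pow] at hx
  by_contra h
  exact absurd (one_le_pow_of_one_le' (not_lt.1 h) 2) (not_le.2 hx)

theorem int_of_sq_int {x : K} (hx : v (x ^ 2) ≤ 1) : v x ≤ 1 := by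
  rw [map_pow] at hx
  by_contra h
  exact absurd (one_lt_pow₀ (not_le.1 h) two_ne_zero) (not_lt.2 hx)

theorem ne_zero_of_unit {x : K} (hx : v x = 1) : x ≠ 0 := by
  rintro rfl; simp at hx

theorem ne_zero_of_pole {x : K} (hx : 1 < v x) : x ≠ 0 := by
  rintro rfl; simp at hx

theorem sm_inv_of_pole {x : K} (hx : 1 < v x) : v x⁻¹ < 1 := by
  rw [map_inv₀]; exact inv_lt_one_of_one_lt₀ hx

end Fermat.Agent.S05
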