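import Fermat.Agent.S05.Core1

set_option autoImplicit false
set_option linter.unusedSectionVars false

namespace Fermat.Agent.S05

open WeierstrassCurve WeierstrassCurve.Affine

variable {K : Type*} [Field K] {Γ₀ : Type*} [LinearOrderedCommGroupWithZero Γ₀]
  (v : Valuation K Γ₀) {W : WeierstrassCurve.Affine K}

/-- `x`-coordinate of a point, junk value `0` at infinity. -/
def xc : W.Point → K
  | .zero => 0
  | .some x _ _ => x

/-- The kernel of reduction: points with a pole in `x`. -/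
def InE1 : W.Point → Prop
  | .zero => True
  | .some x _ _ => 1 < v x

/-- Points not reducing to `x ≡ 0`. -/
def InE0 : W.Point → Prop
  | .zero => True
  | .some x _ _ => 1 ≤ v x

theorem inE0_of_inE1 {P : W.Point} (h : InE1 v P) : InE0 v P := by
  cases P with
  | zero => trivial
  | some x y hxy => exact le_of_lt h

theorem val_y_sq_le (hW : Special W) (ha : v W.a₂ ≤ 1) (hb : v W.a₄ ≤ 1) {x y : K}
    (h : W.Nonsingular x y) (hx : 1 ≤ v x) : v y ^ 2 ≤ v x ^ 3 := by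
  rw [← map_pow, eqn_of_nonsingular hW h]
  refine (v.map_add _ _).trans (max_le ((v.map_add _ _).trans (max_le ?_ ?_)) ?_)
  · rw [map_pow]
  · rw [map_mul, map_pow]
    calc v W.a₂ * v x ^ 2 ≤ v x ^ 2 := mul_le_of_le_one_left' ha
      _ ≤ v x ^ 3 := pow_le_pow_right' hx (by norm_num)
  · rw [map_mul]
    calc v W.a₄ * v x ≤ v x := mul_le_of_le_one_left' hb
      _ ≤ v x ^ 3 := le_self_pow hx (by norm_num)

theorem val_y_sq_of_pole (hW : Special W) (ha : v W.a₂ ≤ 1) (hb : v W.a₄ ≤ 1) {x y : K}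
    (h : W.Nonsingular x y) (hx : 1 < v x) : v y ^ 2 = v x ^ 3 := by
  rw [← map_pow, eqn_of_nonsingular hW h]
  have h1 : v (W.a₂ * x ^ 2) < v (x ^ 3) := by
    rw [map_mul, map_pow, map_pow]
    calc v W.a₂ * v x ^ 2 ≤ v x ^ 2 := mul_le_of_le_one_left' ha
      _ < v x ^ 3 := pow_lt_pow_right₀ hx (by norm_num)
  have h2 : v (x ^ 3 + W.a₂ * x ^ 2) = v (x ^ 3) := Valuation.map_add_eq_of_lt_left v h1
  have h3 : v (W.a₄ * x) < v (x ^ 3 + W.a₂ * x ^ 2) := by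
    rw [h2, map_mul, map_pow]
    calc v W.a₄ * v x ≤ v x := mul_le_of_le_one_left' hb
      _ < v x ^ 3 := lt_self_pow₀ hx (by norm_num)
  rw [Valuation.map_add_eq_of_lt_left v h3, h2, map_pow]

theorem val_y_le_one (hW : Special W) (ha : v W.a₂ ≤ 1) (hb : v W.a₄ ≤ 1) {x y : K}
    (h : W.Nonsingular x y) (hx : v x ≤ 1) : v y ≤ 1 := by
  apply int_of_sq_int
  rw [eqn_of_nonsingular hW h]
  exact int_add v (int_add v (int_pow v hx 3) (int_mul v ha (int_pow v hx 2))) (int_mul v hb hx)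

/-- Pure valuation consequence of the `N`-formula. -/
theorem val_of_FN {x₁ y₁ x₂ y₂ x₃ b : K} (hx₁ : 1 ≤ v x₁) (hx₂ : 1 ≤ v x₂)
    (hy₁ : v y₁ ^ 2 ≤ v x₁ ^ 3) (hy₂ : v y₂ ^ 2 ≤ v x₂ ^ 3) (hb : v b < v x₁ * v x₂)
    (hN : x₃ * (x₂ * y₁ + x₁ * y₂) ^ 2 = x₁ * x₂ * (x₁ * x₂ - b) ^ 2) :
    min (v x₁) (v x₂) ≤ v x₃ := by
  have h1 : v (x₁ * x₂ - b) = v x₁ * v x₂ := by
    rw [← map_mul] at hb ⊢
    exact Valuation.map_sub_eq_of_lt_left v hb
  have hV : v x₃ * v (x₂ * y₁ + x₁ * y₂) ^ 2 = (v x₁ * v x₂) ^ 3 := by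
    have := congrArg v hN
    rw [map_mul, map_pow, map_mul, map_mul, map_pow, h1] at this
    rw [this]; exact (pow_succ' _ 2).symm
  have hx₁0 : 0 < v x₁ := lt_of_lt_of_le zero_lt_one hx₁
  have hx₂0 : 0 < v x₂ := lt_of_lt_of_le zero_lt_one hx₂
  -- bound on `v N ^ 2`
  have hN2 : v (x₂ * y₁ + x₁ * y₂) ^ 2 ≤ (v x₁ * v x₂) ^ 2 * max (v x₁) (v x₂) := by
    have hle := v.map_add (x₂ * y₁) (x₁ * y₂)
    rcases le_max_iff.1 hle with h | h
    · calc v (x₂ * y₁ + x₁ * y₂) ^ 2 ≤ v (x₂ * y₁) ^ 2 := pow_le_pow_left' h 2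
        _ = v x₂ ^ 2 * v y₁ ^ 2 := by rw [map_mul, mul_pow]
        _ ≤ v x₂ ^ 2 * v x₁ ^ 3 := mul_le_mul_right hy₁ _
        _ = (v x₁ * v x₂) ^ 2 * v x₁ := by rw [mul_pow, pow_succ (v x₁) 2]; ac_rfl
        _ ≤ (v x₁ * v x₂) ^ 2 * max (v x₁) (v x₂) := mul_le_mul_right (le_max_left _ _) _
    · calc v (x₂ * y₁ + x₁ * y₂) ^ 2 ≤ v (x₁ * y₂) ^ 2 := pow_le_pow_left' h 2
        _ = v x₁ ^ 2 * v y₂ ^ 2 := by rw [map_mul, mul_pow]
        _ ≤ v x₁ ^ 2 * v x₂ ^ 3 := mul_le_mul_right hy₂ _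
        _ = (v x₁ * v x₂) ^ 2 * v x₂ := by rw [mul_pow, pow_succ (v x₂) 2]; ac_rfl
        _ ≤ (v x₁ * v x₂) ^ 2 * max (v x₁) (v x₂) := mul_le_mul_right (le_max_right _ _) _
  have hVpos : 0 < (v x₁ * v x₂) ^ 2 := pow_pos (mul_pos hx₁0 hx₂0) 2
  have h3 : (v x₁ * v x₂) ^ 2 * (v x₁ * v x₂) ≤ (v x₁ * v x₂) ^ 2 * (v x₃ * max (v x₁) (v x₂)) := by
    calc (v x₁ * v x₂) ^ 2 * (v x₁ * v x₂) = (v x₁ * v x₂) ^ 3 := (pow_succ _ 2).symm
      _ = v x₃ * v (x₂ * y₁ + x₁ * y₂) ^ 2 := hV.symm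
      _ ≤ v x₃ * ((v x₁ * v x₂) ^ 2 * max (v x₁) (v x₂)) := mul_le_mul_right hN2 _
      _ = (v x₁ * v x₂) ^ 2 * (v x₃ * max (v x₁) (v x₂)) := mul_left_comm _ _ _
  have h4 : v x₁ * v x₂ ≤ v x₃ * max (v x₁) (v x₂) := le_of_mul_le_mul_left h3 hVpos
  rcases le_total (v x₁) (v x₂) with h | h
  · rw [max_eq_right h] at h4
    rw [min_eq_left h]
    exact le_of_mul_le_mul_right h4 hx₂0
  · rw [max_eq_left h] at h4
    rw [min_eq_right h]
    rw [mul_comm] at h4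
    exact le_of_mul_le_mul_right h4 hx₁0

variable [DecidableEq K]

theorem inE1_zero : InE1 v (0 : W.Point) := trivial

theorem inE0_zero : InE0 v (0 : W.Point) := trivial

theorem inE1_neg {P : W.Point} (h : InE1 v P) : InE1 v (-P) := by
  cases P with
  | zero => exact h
  | some x y hxy => rw [Point.neg_some]; exact h

theorem inE0_neg {P : W.Point} (h : InE0 v P) : InE0 v (-P) := by
  cases P with
  | zero => exact h
  | some x y hxy => rw [Point.neg_some]; exact h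

theorem inE1_add (hW : Special W) (ha : v W.a₂ ≤ 1) (hb : v W.a₄ ≤ 1) {P Q : W.Point}
    (hP : InE1 v P) (hQ : InE1 v Q) : InE1 v (P + Q) := by
  cases P with
  | zero => rw [← Point.zero_def, zero_add]; exact hQ
  | some x₁ y₁ h₁ =>
    cases Q with
    | zero => rw [← Point.zero_def, add_zero]; exact hP
    | some x₂ y₂ h₂ =>
      by_cases hne : x₁ = x₂ ∧ y₁ = -y₂
      · have h0 : Point.some x₁ y₁ h₁ + Point.some x₂ y₂ h₂ = 0 :=
          Point.add_of_Y_eq hne.1 (by rw [negY_eq hW]; exact hne.2)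
        rw [h0]; trivial
      · obtain ⟨x₃, y₃, h₃, hadd, hN, -, -, -⟩ := add_formula hW h₁ h₂ hne
        rw [hadd]
        have hP' : 1 < v x₁ := hP
        have hQ' : 1 < v x₂ := hQ
        have hb' : v W.a₄ < v x₁ * v x₂ :=
          lt_of_le_of_lt hb (lt_of_lt_of_le hP' (le_mul_of_one_le_right' (le_of_lt hQ')))
        have := val_of_FN v (le_of_lt hP') (le_of_lt hQ')
          (val_y_sq_le v hW ha hb h₁ (le_of_lt hP')) (val_y_sq_le v hW ha hb h₂ (le_of_lt hQ')) hb' hN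
        exact lt_of_lt_of_le (lt_min hP' hQ') this

theorem inE0_add (hW : Special W) (ha : v W.a₂ ≤ 1) (hb : v W.a₄ < 1) {P Q : W.Point}
    (hP : InE0 v P) (hQ : InE0 v Q) : InE0 v (P + Q) := by
  cases P with
  | zero => rw [← Point.zero_def, zero_add]; exact hQ
  | some x₁ y₁ h₁ =>
    cases Q with
    | zero => rw [← Point.zero_def, add_zero]; exact hP
    | some x₂ y₂ h₂ =>
      by_cases hne : x₁ = x₂ ∧ y₁ = -y₂
      · have h0 : Point.some x₁ y₁ h₁ + Point.some x₂ y₂ h₂ = 0 :=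
          Point.add_of_Y_eq hne.1 (by rw [negY_eq hW]; exact hne.2)
        rw [h0]; trivial
      · obtain ⟨x₃, y₃, h₃, hadd, hN, -, -, -⟩ := add_formula hW h₁ h₂ hne
        rw [hadd]
        have hP' : 1 ≤ v x₁ := hP
        have hQ' : 1 ≤ v x₂ := hQ
        have hb' : v W.a₄ < v x₁ * v x₂ :=
          lt_of_lt_of_le hb (le_trans hP' (le_mul_of_one_le_right' hQ'))
        have := val_of_FN v hP' hQ'
          (val_y_sq_le v hW ha (le_of_lt hb) h₁ hP') (val_y_sq_le v hW ha (le_of_lt hb) h₂ hQ') hb' hN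
        exact le_trans (le_min hP' hQ') this

theorem inE1_sub (hW : Special W) (ha : v W.a₂ ≤ 1) (hb : v W.a₄ ≤ 1) {P Q : W.Point}
    (hP : InE1 v P) (hQ : InE1 v Q) : InE1 v (P - Q) := by
  rw [sub_eq_add_neg]; exact inE1_add v hW ha hb hP (inE1_neg v hQ)

theorem inE0_sub (hW : Special W) (ha : v W.a₂ ≤ 1) (hb : v W.a₄ < 1) {P Q : W.Point}
    (hP : InE0 v P) (hQ : InE0 v Q) : InE0 v (P - Q) := by
  rw [sub_eq_add_neg]; exact inE0_add v hW ha hb hP (inE0_neg v hQ)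

theorem inE1_nsmul (hW : Special W) (ha : v W.a₂ ≤ 1) (hb : v W.a₄ ≤ 1) {P : W.Point}
    (hP : InE1 v P) (n : ℕ) : InE1 v (n • P) := by
  induction n with
  | zero => rw [zero_nsmul]; trivial
  | succ n ih => rw [succ_nsmul]; exact inE1_add v hW ha hb ih hP

theorem inE0_nsmul (hW : Special W) (ha : v W.a₂ ≤ 1) (hb : v W.a₄ < 1) {P : W.Point}
    (hP : InE0 v P) (n : ℕ) : InE0 v (n • P) := by
  induction n with
  | zero => rw [zero_nsmul]; trivial
  | succ n ih => rw [succ_nsmul]; exact inE0_add v hW ha hb ih hP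

end Fermat.Agent.S05
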