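import Fermat.Agent.S05.Core2

set_option autoImplicit false
set_option linter.unusedSectionVars false

namespace Fermat.Agent.S05

open WeierstrassCurve WeierstrassCurve.Affine

variable {K : Type*} [Field K] [DecidableEq K] {Γ₀ : Type*} [LinearOrderedCommGroupWithZero Γ₀]
  (v : Valuation K Γ₀) {W : WeierstrassCurve.Affine K}

theorem pole_of_mul_sm {x t : K} (h : v (x * t) = 1) (ht : v t < 1) : 1 < v x := by
  by_contra hx
  rw [not_lt] at hx
  have := int_mul_sm v hx ht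
  rw [h] at this
  exact lt_irrefl _ this

theorem pole_div {u s : K} (hu : v u = 1) (hs : v s < 1) (hs0 : s ≠ 0) : 1 < v (u / s) := by
  apply pole_of_mul_sm v (t := s) _ hs
  rw [div_mul_cancel₀ _ hs0, hu]

/-- Two integral points with the same nonsingular reduction differ by an element of `E₁`. -/
theorem congr_sub_inE1 (hW : Special W) (ha : v W.a₂ ≤ 1) (hb : v W.a₄ ≤ 1) (h2 : v 2 = 1)
    {x₁ y₁ x₂ y₂ : K} (h₁ : W.Nonsingular x₁ y₁) (h₂ : W.Nonsingular x₂ y₂)
    (hx₁ : v x₁ ≤ 1) (hx₂ : v x₂ ≤ 1) (hx : v (x₁ - x₂) < 1) (hy : v (y₁ - y₂) < 1)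
    (hns : v y₁ = 1 ∨ v (3 * x₁ ^ 2 + 2 * W.a₂ * x₁ + W.a₄) = 1) :
    InE1 v (Point.some x₁ y₁ h₁ - Point.some x₂ y₂ h₂) := by
  have hy₁ : v y₁ ≤ 1 := val_y_le_one v hW ha hb h₁ hx₁
  have hy₂ : v y₂ ≤ 1 := val_y_le_one v hW ha hb h₂ hx₂
  have e₁ := eqn_of_nonsingular hW h₁
  have e₂ := eqn_of_nonsingular hW h₂
  by_cases heq : x₁ = x₂ ∧ y₁ = y₂
  · obtain ⟨rfl, rfl⟩ := heq
    rw [sub_self]; trivial
  · obtain ⟨x₃, y₃, h₃, hsub, hN, hM, hch, hdb⟩ := sub_formula hW h₁ h₂ heq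
    rw [hsub]
    change 1 < v x₃
    by_cases hxx : x₁ = x₂
    · subst hxx
      have hyne : y₁ ≠ y₂ := fun h => heq ⟨rfl, h⟩
      have hprod : (y₁ - y₂) * (y₁ + y₂) = 0 := by linear_combination e₁ - e₂
      have hsum : y₁ + y₂ = 0 := by
        rcases mul_eq_zero.1 hprod with h | h
        · exact absurd (sub_eq_zero.1 h) hyne
        · exact h
      have hy2 : y₂ = -y₁ := by linear_combination hsum
      have h2y : v (2 * y₁) < 1 := by
        have : y₁ - y₂ = 2 * y₁ := by rw [hy2]; ring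
        rwa [this] at hy
      have hy1sm : v y₁ < 1 := by rwa [map_mul, h2, one_mul] at h2y
      have hy10 : y₁ ≠ 0 := by
        rintro rfl
        apply hyne; rw [hy2]; simp
      have hF : v (3 * x₁ ^ 2 + 2 * W.a₂ * x₁ + W.a₄) = 1 := by
        rcases hns with h | h
        · rw [h] at hy1sm; exact absurd hy1sm (lt_irrefl _)
        · exact h
      have hkey : (x₁ ^ 2 - W.a₄) ^ 2 = (3 * x₁ ^ 2 + 2 * W.a₂ * x₁ + W.a₄) ^ 2
          - (8 * x₁ + 4 * W.a₂) * y₁ ^ 2 := by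
        grind
      have h8 : v ((8 : K) * x₁ + 4 * W.a₂) ≤ 1 := by
        have h8' : (8 : K) = 2 * 2 * 2 := by norm_num
        have h4' : (4 : K) = 2 * 2 := by norm_num
        apply int_add
        · rw [h8']; exact int_mul v (le_of_eq (unit_mul v (unit_mul v h2 h2) h2)) hx₁
        · rw [h4']; exact int_mul v (le_of_eq (unit_mul v h2 h2)) ha
      have hnum : v ((x₁ ^ 2 - W.a₄) ^ 2) = 1 := by
        rw [hkey]
        exact unit_sub_sm v (unit_pow v hF 2) (int_mul_sm v h8 (sm_pow v hy1sm two_ne_zero))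
      have h4y : v ((4 : K) * y₁ ^ 2) < 1 := by
        have h4' : (4 : K) = 2 * 2 := by norm_num
        rw [h4']
        exact int_mul_sm v (le_of_eq (unit_mul v h2 h2)) (sm_pow v hy1sm two_ne_zero)
      apply pole_of_mul_sm v (t := 4 * y₁ ^ 2) _ h4y
      rw [hdb rfl, hnum]
    · have hd : x₁ - x₂ ≠ 0 := sub_ne_zero.2 hxx
      have hL : 1 < v ((y₁ + y₂) / (x₁ - x₂)) := by
        rcases hns with h | h
        · have hs : v (y₁ + y₂) = 1 := by
            have : y₁ + y₂ = 2 * y₁ - (y₁ - y₂) := by ring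
            rw [this]
            exact unit_sub_sm v (unit_mul v h2 h) hy
          exact pole_div v hs hx hd
        · have hF : v (x₁ ^ 2 + x₁ * x₂ + x₂ ^ 2 + W.a₂ * (x₁ + x₂) + W.a₄) = 1 := by
            have : x₁ ^ 2 + x₁ * x₂ + x₂ ^ 2 + W.a₂ * (x₁ + x₂) + W.a₄
                = (3 * x₁ ^ 2 + 2 * W.a₂ * x₁ + W.a₄) - (x₁ - x₂) * (x₂ + 2 * x₁ + W.a₂) := by
              ring
            rw [this]
            refine unit_sub_sm v h (sm_mul_int v hx ?_)
            refine int_add v (int_add v hx₂ ?_) ha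
            exact int_mul v (le_of_eq h2) hx₁
          have hprod : (y₁ + y₂) * (y₁ - y₂)
              = (x₁ - x₂) * (x₁ ^ 2 + x₁ * x₂ + x₂ ^ 2 + W.a₂ * (x₁ + x₂) + W.a₄) := by
            linear_combination e₁ - e₂
          have hyne : y₁ - y₂ ≠ 0 := by
            intro h0
            rw [h0, mul_zero] at hprod
            rcases mul_eq_zero.1 hprod.symm with h' | h'
            · exact hd h'
            · rw [h', map_zero] at hF; exact zero_ne_one hF
          have hLeq : (y₁ + y₂) / (x₁ - x₂)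
              = (x₁ ^ 2 + x₁ * x₂ + x₂ ^ 2 + W.a₂ * (x₁ + x₂) + W.a₄) / (y₁ - y₂) := by
            rw [div_eq_div_iff hd hyne, hprod]; ring
          rw [hLeq]
          exact pole_div v hF hy hyne
      rw [hch hxx]
      have hL2 : 1 < v (((y₁ + y₂) / (x₁ - x₂)) ^ 2) := by
        rw [map_pow]; exact one_lt_pow₀ hL two_ne_zero
      have hrest : v (W.a₂ + x₁ + x₂) ≤ 1 := int_add v (int_add v ha hx₁) hx₂
      have : ((y₁ + y₂) / (x₁ - x₂)) ^ 2 - W.a₂ - x₁ - x₂
          = ((y₁ + y₂) / (x₁ - x₂)) ^ 2 - (W.a₂ + x₁ + x₂) := by ring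
      rw [this, Valuation.map_sub_eq_of_lt_left v (lt_of_le_of_lt hrest hL2)]
      exact hL2

end Fermat.Agent.S05
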