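import Fermat.Agent.S05.Core3

set_option autoImplicit false
set_option linter.unusedSectionVars false

namespace Fermat.Agent.S05

open WeierstrassCurve WeierstrassCurve.Affine

variable {K : Type*} [Field K] [DecidableEq K] {Γ₀ : Type*} [LinearOrderedCommGroupWithZero Γ₀]
  (v : Valuation K Γ₀) {W : WeierstrassCurve.Affine K}

theorem sm_of_mul_unit {T d : K} (hd : v d = 1) (h : v (T * d) < 1) : v T < 1 := by
  rwa [map_mul, hd, mul_one] at h

theorem int_two (h2 : v (2 : K) = 1) : v (2 : K) ≤ 1 := le_of_eq h2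

theorem unit_four (h2 : v (2 : K) = 1) : v (4 : K) = 1 := by
  have h4' : (4 : K) = 2 * 2 := by norm_num
  rw [h4']; exact unit_mul v h2 h2

/-- Doubling step for the `ζ`-invariant on `E₁`. -/
theorem zeta_double (hW : Special W) (ha : v W.a₂ ≤ 1) (hb : v W.a₄ ≤ 1) (h2 : v (2 : K) = 1)
    {x : K} {Q : W.Point} (hQ : InE1 v Q) (c : K) (hc : v c ≤ 1)
    (hQc : v ((xc Q)⁻¹ * x - c ^ 2) < 1) : v ((xc (Q + Q))⁻¹ * x - (2 * c) ^ 2) < 1 := by
  cases Q with
  | zero =>
    have h0 : (Point.zero : W.Point) + Point.zero = 0 := by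
      rw [← Point.zero_def, add_zero]
    rw [h0]
    change v ((0 : K)⁻¹ * x - (2 * c) ^ 2) < 1
    have hc2 : v ((0 : K)⁻¹ * x - c ^ 2) < 1 := hQc
    rw [inv_zero, zero_mul, zero_sub, Valuation.map_neg] at hc2 ⊢
    have : (2 * c) ^ 2 = 2 * 2 * c ^ 2 := by ring
    rw [this]
    exact int_mul_sm v (le_of_eq (unit_mul v h2 h2)) hc2
  | some xk yk hk =>
    have hxk : 1 < v xk := hQ
    have hxk0 : xk ≠ 0 := ne_zero_of_pole v hxk
    have ek := eqn_of_nonsingular hW hk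
    have h20 : (2 : K) ≠ 0 := ne_zero_of_unit v h2
    have hyk0 : yk ≠ 0 := by
      have := val_y_sq_of_pole v hW ha hb hk hxk
      rintro rfl
      rw [map_zero, zero_pow two_ne_zero] at this
      exact absurd this.symm (pow_ne_zero 3 ((Valuation.ne_zero_iff v).2 hxk0))
    have hne : ¬(xk = xk ∧ yk = -yk) := by
      rintro ⟨-, h⟩
      apply hyk0
      have : 2 * yk = 0 := by linear_combination h
      rcases mul_eq_zero.1 this with h' | h'
      · exact absurd h' h20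
      · exact h'
    obtain ⟨x₃, y₃, h₃, hadd, -, -, -, hdb⟩ := add_formula hW hk hk hne
    rw [hadd]
    change v (x₃⁻¹ * x - (2 * c) ^ 2) < 1
    have hQc' : v (xk⁻¹ * x - c ^ 2) < 1 := hQc
    have hdb' := hdb rfl
    set z := xk⁻¹ with hz
    have hzx : xk * z = 1 := mul_inv_cancel₀ hxk0
    have hzsm : v z < 1 := sm_inv_of_pole v hxk
    have he : v (1 + W.a₂ * z + W.a₄ * z ^ 2) = 1 := by
      rw [add_assoc]
      refine unit_add_sm v (by simp) (sm_add v (int_mul_sm v ha hzsm)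
        (int_mul_sm v hb (sm_pow v hzsm two_ne_zero)))
    have hd : v (1 - W.a₄ * z ^ 2) = 1 :=
      unit_sub_sm v (by simp) (int_mul_sm v hb (sm_pow v hzsm two_ne_zero))
    have hd2 : v ((1 - W.a₄ * z ^ 2) ^ 2) = 1 := unit_pow v hd 2
    have hd0 : (1 - W.a₄ * z ^ 2) ^ 2 ≠ 0 := ne_zero_of_unit v hd2
    -- x₃ * (4 e z) = d²
    have hx3 : x₃ * (4 * (1 + W.a₂ * z + W.a₄ * z ^ 2) * z) = (1 - W.a₄ * z ^ 2) ^ 2 := by
      have h1 : yk ^ 2 * z ^ 4 = (1 + W.a₂ * z + W.a₄ * z ^ 2) * z := by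
        rw [ek]
        linear_combination (z ^ 3 * xk ^ 2 + z ^ 2 * xk + z + W.a₂ * z ^ 3 * xk + W.a₂ * z ^ 2
          + W.a₄ * z ^ 3) * hzx
      have h2' : (xk ^ 2 - W.a₄) ^ 2 * z ^ 4 = (1 - W.a₄ * z ^ 2) ^ 2 := by
        have : (xk ^ 2 - W.a₄) * z ^ 2 = 1 - W.a₄ * z ^ 2 := by
          linear_combination (xk * z + 1) * hzx
        rw [← this]; ring
      calc x₃ * (4 * (1 + W.a₂ * z + W.a₄ * z ^ 2) * z)
          = x₃ * (4 * yk ^ 2) * z ^ 4 := by linear_combination (-4 * x₃) * h1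
        _ = (1 - W.a₄ * z ^ 2) ^ 2 := by rw [hdb', h2']
    have hx30 : x₃ ≠ 0 := by
      rintro rfl
      rw [zero_mul] at hx3
      exact hd0 hx3.symm
    have hinv : x₃⁻¹ * (1 - W.a₄ * z ^ 2) ^ 2 = 4 * (1 + W.a₂ * z + W.a₄ * z ^ 2) * z := by
      rw [← hx3, ← mul_assoc, inv_mul_cancel₀ hx30, one_mul]
    apply sm_of_mul_unit v hd2
    have hT : (x₃⁻¹ * x - (2 * c) ^ 2) * (1 - W.a₄ * z ^ 2) ^ 2
        = 4 * ((1 + W.a₂ * z + W.a₄ * z ^ 2) * (z * x - c ^ 2)
          + c ^ 2 * (z * (W.a₂ + 3 * W.a₄ * z - W.a₄ ^ 2 * z ^ 3))) := by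
      linear_combination x * hinv
    rw [hT]
    refine int_mul_sm v (le_of_eq (unit_four v h2)) (sm_add v (int_mul_sm v (le_of_eq he) hQc') ?_)
    refine int_mul_sm v (int_pow v hc 2) (sm_mul_int v hzsm ?_)
    have h3 : v (3 : K) ≤ 1 := by exact_mod_cast int_natCast v 3
    exact int_sub v (int_add v ha (int_mul v (int_mul v h3 hb) (le_of_lt hzsm)))
      (int_mul v (int_pow v hb 2) (int_pow v (le_of_lt hzsm) 3))

/-- Odd step for the `ζ`-invariant on `E₁`. -/
theorem zeta_odd (hW : Special W) (ha : v W.a₂ ≤ 1) (hb : v W.a₄ ≤ 1) (h2 : v (2 : K) = 1)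
    {x y : K} (h : W.Nonsingular x y) (hx : 1 < v x) {Q₁ Q₂ : W.Point}
    (hQ₁ : InE1 v Q₁) (hQ₂ : InE1 v Q₂) (hdiff : Q₁ - Q₂ = Point.some x y h)
    (c : K) (hc : v c ≤ 1)
    (h₁ : v ((xc Q₁)⁻¹ * x - (c + 1) ^ 2) < 1) (h₂ : v ((xc Q₂)⁻¹ * x - c ^ 2) < 1) :
    v ((xc (Q₁ + Q₂))⁻¹ * x - (2 * c + 1) ^ 2) < 1 := by
  have hx0 : x ≠ 0 := ne_zero_of_pole v hx
  have h4 : v (4 : K) ≤ 1 := le_of_eq (unit_four v h2)
  have h3 : v (3 : K) ≤ 1 := by exact_mod_cast int_natCast v 3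
  have h1' : v (1 : K) ≤ 1 := by simp
  cases Q₂ with
  | zero =>
    have hQ1 : Q₁ = Point.some x y h := by
      rw [← hdiff, ← Point.zero_def, sub_zero]
    have hsum : Q₁ + Point.zero = Point.some x y h := by
      rw [← Point.zero_def, add_zero, hQ1]
    rw [hsum]
    change v (x⁻¹ * x - (2 * c + 1) ^ 2) < 1
    have hc2 : v ((0 : K)⁻¹ * x - c ^ 2) < 1 := h₂
    rw [inv_zero, zero_mul, zero_sub, Valuation.map_neg] at hc2
    have hcs : v c < 1 := sm_of_sq_sm v hc2
    have : x⁻¹ * x - (2 * c + 1) ^ 2 = c * (-4 * (c + 1)) := by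
      rw [inv_mul_cancel₀ hx0]; ring
    rw [this]
    refine sm_mul_int v hcs (int_mul v (int_neg v h4) (int_add v hc h1'))
  | some x₂ y₂ hk₂ =>
    cases Q₁ with
    | zero =>
      have hsum : (Point.zero : W.Point) + Point.some x₂ y₂ hk₂ = Point.some x₂ y₂ hk₂ := by
        rw [← Point.zero_def, zero_add]
      rw [hsum]
      change v (x₂⁻¹ * x - (2 * c + 1) ^ 2) < 1
      have hc1 : v ((0 : K)⁻¹ * x - (c + 1) ^ 2) < 1 := h₁
      rw [inv_zero, zero_mul, zero_sub, Valuation.map_neg] at hc1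
      have hcs : v (c + 1) < 1 := sm_of_sq_sm v hc1
      have h₂' : v (x₂⁻¹ * x - c ^ 2) < 1 := h₂
      have : x₂⁻¹ * x - (2 * c + 1) ^ 2 = (x₂⁻¹ * x - c ^ 2) - (c + 1) * (3 * c + 1) := by ring
      rw [this]
      exact sm_sub v h₂' (sm_mul_int v hcs (int_add v (int_mul v h3 hc) h1'))
    | some x₁ y₁ hk₁ =>
      have hx₁ : 1 < v x₁ := hQ₁
      have hx₂ : 1 < v x₂ := hQ₂
      have hx₁0 : x₁ ≠ 0 := ne_zero_of_pole v hx₁
      have hx₂0 : x₂ ≠ 0 := ne_zero_of_pole v hx₂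
      have h₁' : v (x₁⁻¹ * x - (c + 1) ^ 2) < 1 := h₁
      have h₂' : v (x₂⁻¹ * x - c ^ 2) < 1 := h₂
      by_cases hopp : x₁ = x₂ ∧ y₁ = -y₂
      · have h0 : Point.some x₁ y₁ hk₁ + Point.some x₂ y₂ hk₂ = 0 :=
          Point.add_of_Y_eq hopp.1 (by rw [negY_eq hW]; exact hopp.2)
        rw [h0]
        change v ((0 : K)⁻¹ * x - (2 * c + 1) ^ 2) < 1
        rw [inv_zero, zero_mul, zero_sub, Valuation.map_neg]
        rw [hopp.1] at h₁'
        have hd : v (2 * c + 1) < 1 := by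
          have : 2 * c + 1 = (x₂⁻¹ * x - c ^ 2) - (x₂⁻¹ * x - (c + 1) ^ 2) := by ring
          rw [this]; exact sm_sub v h₂' h₁'
        exact sm_pow v hd two_ne_zero
      · have hneq : ¬(x₁ = x₂ ∧ y₁ = y₂) := by
          rintro ⟨rfl, rfl⟩
          rw [sub_self] at hdiff
          exact Point.some_ne_zero h hdiff.symm
        obtain ⟨xm, ym, hm, hsub, hNm, -, -, -⟩ := sub_formula hW hk₁ hk₂ hneq
        rw [hsub] at hdiff
        have hxm : xm = x := by
          have := hdiff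
          simp only [Point.some.injEq] at this
          exact this.1
        subst hxm
        obtain ⟨xp, yp, hp, hadd, -, hMp, -, -⟩ := add_formula hW hk₁ hk₂ hopp
        rw [hadd]
        change v (xp⁻¹ * xm - (2 * c + 1) ^ 2) < 1
        set z₁ := x₁⁻¹ with hz₁
        set z₂ := x₂⁻¹ with hz₂
        have hz₁x : x₁ * z₁ = 1 := mul_inv_cancel₀ hx₁0
        have hz₂x : x₂ * z₂ = 1 := mul_inv_cancel₀ hx₂0
        have hz₁s : v z₁ < 1 := sm_inv_of_pole v hx₁
        have hz₂s : v z₂ < 1 := sm_inv_of_pole v hx₂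
        have hd : v (1 - W.a₄ * z₁ * z₂) = 1 := by
          refine unit_sub_sm v (by simp) ?_
          exact sm_mul_int v (int_mul_sm v hb hz₁s) (le_of_lt hz₂s)
        have hd2 : v ((1 - W.a₄ * z₁ * z₂) ^ 2) = 1 := unit_pow v hd 2
        have hd0 : (1 - W.a₄ * z₁ * z₂) ^ 2 ≠ 0 := ne_zero_of_unit v hd2
        -- xm * xp * (x₁ - x₂)² = (x₁ x₂ - b)²
        have hprod : xm * xp * (x₁ - x₂) ^ 2 = (x₁ * x₂ - W.a₄) ^ 2 := by
          have h12 : x₁ * x₂ ≠ 0 := mul_ne_zero hx₁0 hx₂0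
          apply mul_left_cancel₀ h12
          linear_combination xm * hMp + hNm
        have hprod' : xp * (xm * (z₂ - z₁) ^ 2) = (1 - W.a₄ * z₁ * z₂) ^ 2 := by
          have e1 : (x₁ - x₂) * (z₁ * z₂) = z₂ - z₁ := by
            linear_combination z₂ * hz₁x - z₁ * hz₂x
          have e2 : (x₁ * x₂ - W.a₄) * (z₁ * z₂) = 1 - W.a₄ * z₁ * z₂ := by
            linear_combination (x₂ * z₂) * hz₁x + hz₂x
          rw [← e1, ← e2]
          linear_combination (z₁ * z₂) ^ 2 * hprod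
        have hxp0 : xp ≠ 0 := by
          rintro rfl
          rw [zero_mul] at hprod'
          exact hd0 hprod'.symm
        have hinv : xp⁻¹ * (1 - W.a₄ * z₁ * z₂) ^ 2 = xm * (z₂ - z₁) ^ 2 := by
          rw [← hprod', ← mul_assoc, inv_mul_cancel₀ hxp0, one_mul]
        apply sm_of_mul_unit v hd2
        have hT : (xp⁻¹ * xm - (2 * c + 1) ^ 2) * (1 - W.a₄ * z₁ * z₂) ^ 2
            = (z₂ * xm - z₁ * xm - (2 * c + 1) * (1 - W.a₄ * z₁ * z₂))
              * ((z₂ * xm - c ^ 2) - (z₁ * xm - (c + 1) ^ 2)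
                + (2 * c + 1) * (-(W.a₄ * z₁ * z₂))) := by
          linear_combination xm * hinv
        rw [hT]
        have hr₁ : v (z₁ * xm) ≤ 1 := by
          have : z₁ * xm = (z₁ * xm - (c + 1) ^ 2) + (c + 1) ^ 2 := by ring
          rw [this]
          exact int_add v (le_of_lt h₁') (int_pow v (int_add v hc h1') 2)
        have hr₂ : v (z₂ * xm) ≤ 1 := by
          have : z₂ * xm = (z₂ * xm - c ^ 2) + c ^ 2 := by ring
          rw [this]
          exact int_add v (le_of_lt h₂') (int_pow v hc 2)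
        have h2c1 : v (2 * c + 1) ≤ 1 := int_add v (int_mul v (le_of_eq h2) hc) h1'
        refine int_mul_sm v ?_ ?_
        · exact int_sub v (int_sub v hr₂ hr₁) (int_mul v h2c1 (le_of_eq hd))
        · refine sm_add v (sm_sub v h₂' h₁') (int_mul_sm v h2c1 (sm_neg v ?_))
          exact sm_mul_int v (int_mul_sm v hb hz₁s) (le_of_lt hz₂s)

/-- The `ζ`-invariant of multiples: `ζ(mP)/ζ(P) ≡ m²` modulo the maximal ideal. -/
theorem zeta_nsmul (hW : Special W) (ha : v W.a₂ ≤ 1) (hb : v W.a₄ ≤ 1) (h2 : v (2 : K) = 1)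
    {x y : K} (h : W.Nonsingular x y) (hx : 1 < v x) (m : ℕ) :
    v ((xc (m • Point.some x y h))⁻¹ * x - (m : K) ^ 2) < 1 := by
  have hx0 : x ≠ 0 := ne_zero_of_pole v hx
  have hP : InE1 v (Point.some x y h) := hx
  induction m using Nat.strong_induction_on with
  | _ m ih =>
    rcases Nat.lt_or_ge m 2 with hm | hm
    · interval_cases m
      · rw [zero_nsmul]
        change v ((0 : K)⁻¹ * x - ((0 : ℕ) : K) ^ 2) < 1
        simp
      · rw [one_nsmul]
        change v (x⁻¹ * x - ((1 : ℕ) : K) ^ 2) < 1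
        rw [inv_mul_cancel₀ hx0]
        simp
    · rcases Nat.even_or_odd' m with ⟨k, hk | hk⟩
      · have hk1 : k < m := by omega
        have hm' : m • Point.some x y h = k • Point.some x y h + k • Point.some x y h := by
          rw [← add_nsmul]; congr 1; omega
        rw [hm']
        have hc : ((m : ℕ) : K) = 2 * (k : K) := by rw [hk]; push_cast; ring
        rw [hc]
        exact zeta_double v hW ha hb h2 (inE1_nsmul v hW ha hb hP k) (k : K) (int_natCast v k)
          (ih k hk1)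
      · have hk1 : k < m := by omega
        have hk2 : k + 1 < m := by omega
        have hm' : m • Point.some x y h
            = (k + 1) • Point.some x y h + k • Point.some x y h := by
          rw [← add_nsmul]; congr 1; omega
        rw [hm']
        have hc : ((m : ℕ) : K) = 2 * (k : K) + 1 := by rw [hk]; push_cast; ring
        rw [hc]
        have hdiff : (k + 1) • Point.some x y h - k • Point.some x y h = Point.some x y h := by
          rw [succ_nsmul]; abel
        have ih1 := ih (k + 1) hk2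
        rw [Nat.cast_succ] at ih1
        exact zeta_odd v hW ha hb h2 h hx (inE1_nsmul v hW ha hb hP (k + 1))
          (inE1_nsmul v hW ha hb hP k) hdiff (k : K) (int_natCast v k) ih1 (ih k hk1)

/-- `E₁` has no `n`-torsion when `n` is a unit. -/
theorem no_torsion_E1 (hW : Special W) (ha : v W.a₂ ≤ 1) (hb : v W.a₄ ≤ 1) (h2 : v (2 : K) = 1)
    {P : W.Point} (hP : InE1 v P) (n : ℕ) (hn : v (n : K) = 1) (hnP : n • P = 0) : P = 0 := by
  cases P with
  | zero => rfl
  | some x y h =>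
    exfalso
    have hx : 1 < v x := hP
    have := zeta_nsmul v hW ha hb h2 h hx n
    rw [hnP] at this
    change v ((0 : K)⁻¹ * x - (n : K) ^ 2) < 1 at this
    rw [inv_zero, zero_mul, zero_sub, Valuation.map_neg, map_pow, hn, one_pow] at this
    exact lt_irrefl _ this

end Fermat.Agent.S05
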