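import Fermat.Agent.S05.Core4

set_option autoImplicit false
set_option linter.unusedSectionVars false

namespace Fermat.Agent.S05

open WeierstrassCurve WeierstrassCurve.Affine

variable {K : Type*} [Field K] [DecidableEq K] {Γ₀ : Type*} [LinearOrderedCommGroupWithZero Γ₀]
  (v : Valuation K Γ₀) {W : WeierstrassCurve.Affine K}

/-- The point reduces to a nonsingular point (or to infinity). -/
def NSRed : W.Point → Prop
  | .zero => True
  | .some x y _ => 1 < v x ∨ v y = 1 ∨ v (3 * x ^ 2 + 2 * W.a₂ * x + W.a₄) = 1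

theorem unit_of_mul_unit_left {x y : K} (hx : v x ≤ 1) (hy : v y ≤ 1) (h : v (x * y) = 1) :
    v x = 1 := by
  rcases lt_or_eq_of_le hx with h' | h'
  · have := sm_mul_int v h' hy
    rw [h] at this; exact absurd this (lt_irrefl _)
  · exact h'

theorem unit_of_mul_unit_right {x y : K} (hx : v x ≤ 1) (hy : v y ≤ 1) (h : v (x * y) = 1) :
    v y = 1 := by
  rw [mul_comm] at h; exact unit_of_mul_unit_left v hy hx h

theorem unit_of_sq_unit {x : K} (h : v (x ^ 2) = 1) : v x = 1 := by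
  have h1 : v x ≤ 1 := int_of_sq_int v (le_of_eq h)
  rw [pow_two] at h
  exact unit_of_mul_unit_left v h1 h1 h

theorem sm_of_mul_sm {x y : K} (h : v (x * y) < 1) : v x < 1 ∨ v y < 1 := by
  by_contra hcon
  rw [not_or, not_lt, not_lt] at hcon
  rw [map_mul] at h
  exact absurd (one_le_mul_of_one_le_of_one_le hcon.1 hcon.2) (not_le.2 h)

/-- With good reduction every point has nonsingular reduction. -/
theorem nsRed_of_good (hW : Special W) (ha : v W.a₂ ≤ 1) (hb : v W.a₄ ≤ 1) (h2 : v (2 : K) = 1)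
    (hgood : v (W.a₄ ^ 2 * (W.a₂ ^ 2 - 4 * W.a₄)) = 1) (P : W.Point) : NSRed v P := by
  cases P with
  | zero => trivial
  | some x y h =>
    change 1 < v x ∨ v y = 1 ∨ v (3 * x ^ 2 + 2 * W.a₂ * x + W.a₄) = 1
    by_cases hx : 1 < v x
    · exact Or.inl hx
    rw [not_lt] at hx
    right
    have hy : v y ≤ 1 := val_y_le_one v hW ha hb h hx
    rcases lt_or_eq_of_le hy with hys | hyu
    swap
    · exact Or.inl hyu
    right
    have h4 : v (4 : K) = 1 := unit_four v h2
    have hD : v (W.a₂ ^ 2 - 4 * W.a₄) ≤ 1 :=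
      int_sub v (int_pow v ha 2) (int_mul v (le_of_eq h4) hb)
    have hbu : v W.a₄ = 1 :=
      unit_of_sq_unit v (unit_of_mul_unit_left v (int_pow v hb 2) hD hgood)
    have hDu : v (W.a₂ ^ 2 - 4 * W.a₄) = 1 := unit_of_mul_unit_right v (int_pow v hb 2) hD hgood
    have e := eqn_of_nonsingular hW h
    have hxq : v (x * (x ^ 2 + W.a₂ * x + W.a₄)) < 1 := by
      have : x * (x ^ 2 + W.a₂ * x + W.a₄) = y ^ 2 := by rw [e]; ring
      rw [this]; exact sm_pow v hys two_ne_zero
    have h3 : v (3 : K) ≤ 1 := by exact_mod_cast int_natCast v 3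
    rcases sm_of_mul_sm v hxq with hxs | hqs
    · have : 3 * x ^ 2 + 2 * W.a₂ * x + W.a₄ = W.a₄ + x * (3 * x + 2 * W.a₂) := by ring
      rw [this]
      exact unit_add_sm v hbu (sm_mul_int v hxs
        (int_add v (int_mul v h3 hx) (int_mul v (le_of_eq h2) ha)))
    · have h2xa : v (2 * x + W.a₂) = 1 := by
        apply unit_of_sq_unit
        have : (2 * x + W.a₂) ^ 2 = (W.a₂ ^ 2 - 4 * W.a₄) + 4 * (x ^ 2 + W.a₂ * x + W.a₄) := by
          ring
        rw [this]
        exact unit_add_sm v hDu (int_mul_sm v (le_of_eq h4) hqs)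
      have hxu : v x = 1 := by
        rcases lt_or_eq_of_le hx with hxs | hxu
        · exfalso
          have : v W.a₄ < 1 := by
            have : W.a₄ = (x ^ 2 + W.a₂ * x + W.a₄) - x * (x + W.a₂) := by ring
            rw [this]
            exact sm_sub v hqs (sm_mul_int v hxs (int_add v hx ha))
          rw [hbu] at this; exact lt_irrefl _ this
        · exact hxu
      have : 3 * x ^ 2 + 2 * W.a₂ * x + W.a₄
          = x * (2 * x + W.a₂) + (x ^ 2 + W.a₂ * x + W.a₄) := by ring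
      rw [this]
      exact unit_add_sm v (unit_mul v hxu h2xa) hqs

/-- With multiplicative reduction (node at `x = 0`) points of `E₀` have nonsingular reduction. -/
theorem nsRed_of_inE0 (hW : Special W) (ha : v W.a₂ = 1) (hb : v W.a₄ < 1) (h2 : v (2 : K) = 1)
    {P : W.Point} (hP : InE0 v P) : NSRed v P := by
  cases P with
  | zero => trivial
  | some x y h =>
    change 1 < v x ∨ v y = 1 ∨ v (3 * x ^ 2 + 2 * W.a₂ * x + W.a₄) = 1
    have hx1 : 1 ≤ v x := hP
    rcases lt_or_eq_of_le hx1 with hx | hxu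
    · exact Or.inl hx
    right
    have hxu : v x = 1 := hxu.symm
    have hy : v y ≤ 1 := val_y_le_one v hW (le_of_eq ha) (le_of_lt hb) h (le_of_eq hxu)
    rcases lt_or_eq_of_le hy with hys | hyu
    swap
    · exact Or.inl hyu
    right
    have e := eqn_of_nonsingular hW h
    have hxq : v (x * (x ^ 2 + W.a₂ * x + W.a₄)) < 1 := by
      have : x * (x ^ 2 + W.a₂ * x + W.a₄) = y ^ 2 := by rw [e]; ring
      rw [this]; exact sm_pow v hys two_ne_zero
    have hqs : v (x ^ 2 + W.a₂ * x + W.a₄) < 1 := by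
      rwa [map_mul, hxu, one_mul] at hxq
    have hxa : v (x + W.a₂) < 1 := by
      have h1 : v (x * (x + W.a₂)) < 1 := by
        have : x * (x + W.a₂) = (x ^ 2 + W.a₂ * x + W.a₄) - W.a₄ := by ring
        rw [this]; exact sm_sub v hqs hb
      rwa [map_mul, hxu, one_mul] at h1
    have : 3 * x ^ 2 + 2 * W.a₂ * x + W.a₄ = x * (x + 2 * (x + W.a₂)) + W.a₄ := by ring
    rw [this]
    refine unit_add_sm v (unit_mul v hxu (unit_add_sm v hxu ?_)) hb
    exact int_mul_sm v (le_of_eq h2) hxa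

section Sigma

variable (σ : K →+* K) (τ : W.Point →+ W.Point)

/-- If `P` has nonsingular reduction then `τ P - P` lies in the kernel of reduction. -/
theorem tau_sub_inE1 (hW : Special W) (ha : v W.a₂ ≤ 1) (hb : v W.a₄ ≤ 1) (h2 : v (2 : K) = 1)
    (hσ1' : ∀ x, 1 < v x → 1 < v (σ x)) (hσ1 : ∀ x, v x ≤ 1 → v (σ x) ≤ 1)
    (hσ2 : ∀ x, v x ≤ 1 → v (σ x - x) < 1)
    (hτ : ∀ (x y : K) (h : W.Nonsingular x y),
      ∃ h' : W.Nonsingular (σ x) (σ y), τ (Point.some x y h) = Point.some (σ x) (σ y) h')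
    {P : W.Point} (hP : NSRed v P) : InE1 v (τ P - P) := by
  cases P with
  | zero =>
    have : τ (Point.zero : W.Point) = 0 := by rw [← Point.zero_def]; exact map_zero τ
    rw [this, ← Point.zero_def, sub_zero]; trivial
  | some x y h =>
    obtain ⟨h', hτP⟩ := hτ x y h
    rw [hτP]
    have hP' : 1 < v x ∨ v y = 1 ∨ v (3 * x ^ 2 + 2 * W.a₂ * x + W.a₄) = 1 := hP
    by_cases hx : 1 < v x
    · exact inE1_sub v hW ha hb (show InE1 v (Point.some (σ x) (σ y) h') from hσ1' x hx)
        (show InE1 v (Point.some x y h) from hx)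
    · have hx' : v x ≤ 1 := not_lt.1 hx
      have hns : v y = 1 ∨ v (3 * x ^ 2 + 2 * W.a₂ * x + W.a₄) = 1 := by
        rcases hP' with h1 | h1
        · exact absurd h1 hx
        · exact h1
      have hy' : v y ≤ 1 := val_y_le_one v hW ha hb h hx'
      have hxs : v (x - σ x) < 1 := by rw [Valuation.map_sub_swap]; exact hσ2 x hx'
      have hys : v (y - σ y) < 1 := by rw [Valuation.map_sub_swap]; exact hσ2 y hy'
      have := congr_sub_inE1 v hW ha hb h2 h h' hx' (hσ1 x hx') hxs hys hns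
      have h3 := inE1_neg v this
      rwa [neg_sub] at h3

/-- A point with nonsingular reduction whose `n`-th multiple is `τ`-fixed is `τ`-fixed. -/
theorem fixed_of_nsRed (hW : Special W) (ha : v W.a₂ ≤ 1) (hb : v W.a₄ ≤ 1) (h2 : v (2 : K) = 1)
    (hσ1' : ∀ x, 1 < v x → 1 < v (σ x)) (hσ1 : ∀ x, v x ≤ 1 → v (σ x) ≤ 1)
    (hσ2 : ∀ x, v x ≤ 1 → v (σ x - x) < 1)
    (hτ : ∀ (x y : K) (h : W.Nonsingular x y),
      ∃ h' : W.Nonsingular (σ x) (σ y), τ (Point.some x y h) = Point.some (σ x) (σ y) h')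
    {P : W.Point} (hP : NSRed v P) (n : ℕ) (hn : v (n : K) = 1) (hnP : τ (n • P) = n • P) :
    τ P = P := by
  have h1 := tau_sub_inE1 v σ τ hW ha hb h2 hσ1' hσ1 hσ2 hτ hP
  have h3 : n • (τ P - P) = 0 := by
    rw [nsmul_sub, ← map_nsmul, hnP, sub_self]
  exact sub_eq_zero.1 (no_torsion_E1 v hW ha hb h2 h1 n hn h3)

end Sigma

end Fermat.Agent.S05
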