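import Fermat.Agent.S05.Core5

set_option autoImplicit false
set_option linter.unusedSectionVars false

namespace Fermat.Agent.S05

open WeierstrassCurve WeierstrassCurve.Affine

variable {K : Type*} [Field K] [DecidableEq K] {Γ₀ : Type*} [LinearOrderedCommGroupWithZero Γ₀]
  (v : Valuation K Γ₀) {W : WeierstrassCurve.Affine K}

omit [DecidableEq K] in
theorem nonsingular_T (hW : Special W) (hb0 : W.a₄ ≠ 0) : W.Nonsingular 0 0 := by
  rw [Affine.nonsingular_zero]; exact ⟨hW.2.2, Or.inr hb0⟩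

theorem two_nsmul_T (hW : Special W) (hT : W.Nonsingular 0 0) :
    2 • Point.some 0 0 hT = 0 := by
  rw [two_nsmul]
  exact Point.add_of_Y_eq rfl (by rw [negY_eq hW]; simp)

/-- Translation by the two-torsion point `T = (0, 0)` sends `x` to `a₄ / x`. -/
theorem add_T (hW : Special W) (hT : W.Nonsingular 0 0) {x y : K} (h : W.Nonsingular x y)
    (hx : x ≠ 0) :
    ∃ (y' : K) (h' : W.Nonsingular (W.a₄ / x) y'),
      Point.some x y h + Point.some 0 0 hT = Point.some (W.a₄ / x) y' h' := by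
  have hne : ¬(x = 0 ∧ y = -0) := fun h0 => hx h0.1
  obtain ⟨x₃, y₃, h₃, hadd, -, -, hch, -⟩ := add_formula hW h hT hne
  have e := eqn_of_nonsingular hW h
  have hx3 : x₃ = W.a₄ / x := by
    rw [hch hx, eq_div_iff hx]
    have : ((y - 0) / (x - 0)) ^ 2 = y ^ 2 / x ^ 2 := by rw [sub_zero, sub_zero, div_pow]
    rw [this, e]
    field_simp
    ring
  subst hx3
  exact ⟨y₃, h₃, hadd⟩

theorem sub_T (hW : Special W) (hT : W.Nonsingular 0 0) {x y : K} (h : W.Nonsingular x y)
    (hx : x ≠ 0) :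
    ∃ (y' : K) (h' : W.Nonsingular (W.a₄ / x) y'),
      Point.some x y h - Point.some 0 0 hT = Point.some (W.a₄ / x) y' h' := by
  have hne : ¬(x = 0 ∧ y = 0) := fun h0 => hx h0.1
  obtain ⟨x₃, y₃, h₃, hsub, -, -, hch, -⟩ := sub_formula hW h hT hne
  have e := eqn_of_nonsingular hW h
  have hx3 : x₃ = W.a₄ / x := by
    rw [hch hx, eq_div_iff hx]
    have : ((y + 0) / (x - 0)) ^ 2 = y ^ 2 / x ^ 2 := by rw [add_zero, sub_zero, div_pow]
    rw [this, e]
    field_simp
    ring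
  subst hx3
  exact ⟨y₃, h₃, hsub⟩

/-- Points in the "middle component" differ from `T` by an element of `E₀`. -/
theorem sub_T_inE0 (hW : Special W) (hT : W.Nonsingular 0 0) {x y : K}
    (h : W.Nonsingular x y) (hx : v x ≤ v W.a₄) :
    InE0 v (Point.some x y h - Point.some 0 0 hT) := by
  by_cases hx0 : x = 0
  · subst hx0
    have e := eqn_of_nonsingular hW h
    have hy : y = 0 := by
      have : y ^ 2 = 0 := by rw [e]; ring
      exact pow_eq_zero_iff (two_ne_zero) |>.1 this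
    subst hy
    rw [sub_self]; trivial
  · obtain ⟨y', h', hsub⟩ := sub_T hW hT h hx0
    rw [hsub]
    change 1 ≤ v (W.a₄ / x)
    rw [map_div₀]
    have hvx : 0 < v x := zero_lt_iff.2 ((Valuation.ne_zero_iff v).2 hx0)
    exact (one_le_div₀ hvx).2 hx

theorem T_not_inE0 (hT : W.Nonsingular 0 0) : ¬ InE0 v (Point.some 0 0 hT) := by
  intro h
  have h' : (1 : Γ₀) ≤ v 0 := h
  rw [map_zero] at h'
  exact absurd h' (not_le.2 zero_lt_one)

/-- For a point near the node but not in the middle component, `v y = v x`. -/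
theorem val_y_eq_val_x (hW : Special W) (ha : v W.a₂ = 1) {x y : K} (h : W.Nonsingular x y)
    (hx0 : x ≠ 0) (hx : v x < 1) (hbx : v W.a₄ < v x) : v y = v x := by
  have e := eqn_of_nonsingular hW h
  have hvx : 0 < v x := zero_lt_iff.2 ((Valuation.ne_zero_iff v).2 hx0)
  have hbx' : v (W.a₄ / x) < 1 := by
    rw [map_div₀]; exact (div_lt_one₀ hvx).2 hbx
  have hg : v ((y / x) ^ 2) = 1 := by
    have : (y / x) ^ 2 = W.a₂ + (x + W.a₄ / x) := by
      field_simp
      linear_combination e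
    rw [this]
    exact unit_add_sm v ha (sm_add v hx hbx')
  have hg1 := unit_of_sq_unit v hg
  rw [map_div₀] at hg1
  exact (div_eq_one_iff_eq (ne_of_gt hvx)).1 hg1

/-- Two points near the node with the same `v x` (not in the middle component): their sum or their
difference lies in `E₀`. -/
theorem same_val_inE0 (hW : Special W) (ha : v W.a₂ = 1) (h2 : v (2 : K) = 1) {x₁ y₁ x₂ y₂ : K}
    (h₁ : W.Nonsingular x₁ y₁) (h₂ : W.Nonsingular x₂ y₂) (hx₁0 : x₁ ≠ 0) (hx₂0 : x₂ ≠ 0)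
    (hval : v x₁ = v x₂) (hx₁ : v x₁ < 1) (hbx : v W.a₄ < v x₁) :
    InE0 v (Point.some x₁ y₁ h₁ - Point.some x₂ y₂ h₂) ∨
      InE0 v (Point.some x₁ y₁ h₁ + Point.some x₂ y₂ h₂) := by
  have e₁ := eqn_of_nonsingular hW h₁
  have e₂ := eqn_of_nonsingular hW h₂
  have hy₁ : v y₁ = v x₁ := val_y_eq_val_x v hW ha h₁ hx₁0 hx₁ hbx
  have hy₂ : v y₂ = v x₂ := val_y_eq_val_x v hW ha h₂ hx₂0 (hval ▸ hx₁) (hval ▸ hbx)
  have hV : 0 < v x₁ := zero_lt_iff.2 ((Valuation.ne_zero_iff v).2 hx₁0)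
  by_cases hxx : x₁ = x₂
  · subst hxx
    have hprod : (y₁ - y₂) * (y₁ + y₂) = 0 := by linear_combination e₁ - e₂
    rcases mul_eq_zero.1 hprod with h | h
    · left
      have : y₁ = y₂ := sub_eq_zero.1 h
      subst this
      rw [sub_self]; trivial
    · right
      have h0 : Point.some x₁ y₁ h₁ + Point.some x₁ y₂ h₂ = 0 :=
        Point.add_of_Y_eq rfl (by rw [negY_eq hW]; linear_combination h)
      rw [h0]; trivial
  · have hd0 : x₁ - x₂ ≠ 0 := sub_ne_zero.2 hxx
    have hD : v (x₁ - x₂) ≤ v x₁ := by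
      refine (Valuation.map_sub v x₁ x₂).trans (max_le le_rfl (le_of_eq hval.symm))
    have hDpos : 0 < v (x₁ - x₂) := zero_lt_iff.2 ((Valuation.ne_zero_iff v).2 hd0)
    -- one of M, N has full valuation
    have hMN : v (x₂ * y₁ + x₁ * y₂) = v x₁ * v x₁ ∨ v (x₂ * y₁ - x₁ * y₂) = v x₁ * v x₁ := by
      by_contra hcon
      rw [not_or] at hcon
      have hN : v (x₂ * y₁ + x₁ * y₂) ≤ v x₁ * v x₁ := by
        refine (v.map_add _ _).trans (max_le ?_ ?_)
        · rw [map_mul, hy₁, ← hval]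
        · rw [map_mul, hy₂, ← hval]
      have hM : v (x₂ * y₁ - x₁ * y₂) ≤ v x₁ * v x₁ := by
        refine (Valuation.map_sub v _ _).trans (max_le ?_ ?_)
        · rw [map_mul, hy₁, ← hval]
        · rw [map_mul, hy₂, ← hval]
      have hN' := lt_of_le_of_ne hN hcon.1
      have hM' := lt_of_le_of_ne hM hcon.2
      have hsum : v (2 * (x₂ * y₁)) = v x₁ * v x₁ := by
        rw [map_mul, h2, one_mul, map_mul, hy₁, ← hval]
      have : 2 * (x₂ * y₁) = (x₂ * y₁ + x₁ * y₂) + (x₂ * y₁ - x₁ * y₂) := by ring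
      rw [this] at hsum
      have hlt := Valuation.map_add_lt v hN' hM'
      rw [hsum] at hlt
      exact lt_irrefl _ hlt
    -- common final computation
    have key : ∀ (x₃ S : K), x₃ * (x₁ * x₂ * (x₁ - x₂) ^ 2) = S ^ 2 → v S = v x₁ * v x₁ →
        1 ≤ v x₃ := by
      intro x₃ S hS hvS
      have h1 := congrArg v hS
      rw [map_mul, map_mul, map_mul, map_pow, map_pow, hvS, ← hval] at h1
      by_contra hcon
      rw [not_le] at hcon
      have h3 : v x₃ * (v x₁ * v x₁ * v (x₁ - x₂) ^ 2) < v x₁ * v x₁ * (v x₁ * v x₁) := by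
        calc v x₃ * (v x₁ * v x₁ * v (x₁ - x₂) ^ 2)
            < 1 * (v x₁ * v x₁ * v (x₁ - x₂) ^ 2) := by
              apply mul_lt_mul_of_pos_right hcon
              exact mul_pos (mul_pos hV hV) (pow_pos hDpos 2)
          _ = v x₁ * v x₁ * v (x₁ - x₂) ^ 2 := one_mul _
          _ ≤ v x₁ * v x₁ * (v x₁ * v x₁) := by
              apply mul_le_mul_right
              rw [pow_two]
              exact mul_le_mul' hD hD
      rw [h1, pow_two] at h3
      exact lt_irrefl _ h3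
    rcases hMN with hN | hM
    · left
      have hne : ¬(x₁ = x₂ ∧ y₁ = y₂) := fun h => hxx h.1
      obtain ⟨x₃, y₃, h₃, hsub, -, hMf, -, -⟩ := sub_formula hW h₁ h₂ hne
      rw [hsub]
      exact key x₃ _ hMf hN
    · right
      have hne : ¬(x₁ = x₂ ∧ y₁ = -y₂) := fun h => hxx h.1
      obtain ⟨x₃, y₃, h₃, hadd, -, hMf, -, -⟩ := add_formula hW h₁ h₂ hne
      rw [hadd]
      exact key x₃ _ hMf hM

end Fermat.Agent.S05
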