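import Mathlib

set_option autoImplicit false

namespace Fermat.Agent.S05

theorem saw_step {G : Type*} [AddCommGroup G] [LinearOrder G] [IsOrderedAddMonoid G]
    (n J s t c cprev x : G) (hJ : 0 < J) (hJn : J < n) (hs : 0 < s) (hsn : s < n)
    (ht : 0 ≤ t) (htn : t < n) (hx : 0 < x) (hxn : x < n)
    (hr : x + t + 2 • min s J = 2 • min (s + J) n) (hn : s + J ≠ n) (hc : |c| = s)
    (hp : |cprev| = t) (hrel : c = cprev + J ∨ c = cprev + J - 2 • n) :
    |c + J| = x ∨ |c + J - 2 • n| = x := by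
  rcases abs_cases c with ⟨h1, h2⟩ | ⟨h1, h2⟩ <;> rcases hrel with h3 | h3 <;>
    rcases lt_or_gt_of_ne hn with h4 | h4 <;> rcases le_total s J with h5 | h5
  all_goals
    first
    | (left; grind)
    | (right; grind)

theorem saw_last {G : Type*} [AddCommGroup G] [LinearOrder G] [IsOrderedAddMonoid G]
    (n J t c cprev : G) (hJ : 0 < J) (hJn : J < n) (ht : 0 < t) (htn : t < n)
    (hc : |c| = J) (hp : |cprev| = t) (hrel : c = cprev + J ∨ c = cprev + J - 2 • n) :
    c = -J := by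
  rcases abs_cases c with ⟨h1, h2⟩ | ⟨h1, h2⟩ <;> rcases hrel with h3 | h3 <;>
    rcases abs_cases cprev with ⟨h4, h5⟩ | ⟨h4, h5⟩
  all_goals grind

/-- Sawtooth lemma, pure ordered-group combinatorics. -/
theorem sawtooth {G : Type*} [AddCommGroup G] [LinearOrder G] [IsOrderedAddMonoid G]
    (n : G) (j : ℕ → G) (p : ℕ) (hp : 3 ≤ p) (h0 : j 0 = 0)
    (hpos : ∀ m, 1 ≤ m → m ≤ p - 1 → 0 < j m ∧ j m < n)
    (hrec : ∀ m, 1 ≤ m → m ≤ p - 2 →
      j (m + 1) + j (m - 1) + 2 • min (j m) (j 1) = 2 • min (j m + j 1) n)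
    (hne : ∀ m, 1 ≤ m → m ≤ p - 2 → j m + j 1 ≠ n)
    (hsym : j (p - 1) = j 1) :
    ∃ k : ℤ, p • j 1 = (2 * k) • n := by
  have hb1 := hpos 1 le_rfl (by omega)
  have step : ∀ m, 1 ≤ m → m ≤ p - 1 → ∃ (k : ℤ) (c cprev : G),
      c = m • j 1 - (2 * k) • n ∧ |c| = j m ∧ |cprev| = j (m - 1) ∧
        (c = cprev + j 1 ∨ c = cprev + j 1 - 2 • n) := by
    intro m hm1
    induction m, hm1 using Nat.le_induction with
    | base =>
      intro _
      exact ⟨0, j 1, 0, by simp, abs_of_pos hb1.1, by simp [h0], Or.inl (by simp)⟩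
    | succ m hm ih =>
      intro hm2
      obtain ⟨k, c, cprev, hc, hcabs, hpabs, hrel⟩ := ih (by omega)
      have hb := hpos m hm (by omega)
      have hbn := hpos (m + 1) (by omega) hm2
      have hr := hrec m hm (by omega)
      have hn := hne m hm (by omega)
      have ht : 0 ≤ j (m - 1) ∧ j (m - 1) < n := by
        rcases Nat.eq_or_lt_of_le hm with h | h
        · subst h
          simp only [Nat.sub_self, h0, le_refl, true_and]
          exact lt_trans hb1.1 hb1.2
        · have := hpos (m - 1) (by omega) (by omega)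
          exact ⟨le_of_lt this.1, this.2⟩
      have key : |c + j 1| = j (m + 1) ∨ |c + j 1 - 2 • n| = j (m + 1) :=
        saw_step n (j 1) (j m) (j (m - 1)) c cprev (j (m + 1)) hb1.1 hb1.2 hb.1 hb.2 ht.1 ht.2
          hbn.1 hbn.2 hr hn hcabs hpabs hrel
      rcases key with h | h
      · refine ⟨k, c + j 1, c, ?_, h, by simpa using hcabs, Or.inl rfl⟩
        have e2 : (m + 1) • j 1 = m • j 1 + j 1 := succ_nsmul (j 1) m
        rw [hc, e2]; abel
      · refine ⟨k + 1, c + j 1 - 2 • n, c, ?_, h, by simpa using hcabs, Or.inr rfl⟩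
        have e : (2 * (k + 1)) • n = (2 * k) • n + (2 : ℕ) • n := by
          rw [mul_add, mul_one, add_smul]
          congr 1
          exact natCast_zsmul n 2
        have e2 : (m + 1) • j 1 = m • j 1 + j 1 := succ_nsmul (j 1) m
        rw [hc, e2, e]; abel
  obtain ⟨k, c, cprev, hc, hcabs, hpabs, hrel⟩ := step (p - 1) (by omega) le_rfl
  have hb2 := hpos (p - 2) (by omega) (by omega)
  have hp12 : p - 1 - 1 = p - 2 := by omega
  rw [hp12] at hpabs
  rw [hsym] at hcabs
  have hcases : c = -j 1 :=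
    saw_last n (j 1) (j (p - 2)) c cprev hb1.1 hb1.2 hb2.1 hb2.2 hcabs hpabs hrel
  refine ⟨k, ?_⟩
  have hp1 : p = (p - 1) + 1 := by omega
  rw [hp1, succ_nsmul]
  rw [hcases] at hc
  have : (p - 1) • j 1 = (2 * k) • n - j 1 := by
    rw [eq_sub_iff_add_eq] at hc ⊢
    rw [← hc]; abel
  rw [this]; abel

end Fermat.Agent.S05
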