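import Fermat.Agent.S05.Core6
import Fermat.Agent.S05.Saw

set_option autoImplicit false
set_option linter.unusedSectionVars false

namespace Fermat.Agent.S05

open WeierstrassCurve WeierstrassCurve.Affine

variable {K : Type*} [Field K] [DecidableEq K] {Γ₀ : Type*} [LinearOrderedCommGroupWithZero Γ₀]
  (v : Valuation K Γ₀) {W : WeierstrassCurve.Affine K}

theorem inE0_zsmul (hW : Special W) (ha : v W.a₂ ≤ 1) (hb : v W.a₄ < 1) {Q : W.Point}
    (hQ : InE0 v Q) (m : ℤ) : InE0 v (m • Q) := by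
  cases m with
  | ofNat n => rw [Int.ofNat_eq_natCast, natCast_zsmul]; exact inE0_nsmul v hW ha hb hQ n
  | negSucc n => rw [negSucc_zsmul]; exact inE0_neg v (inE0_nsmul v hW ha hb hQ (n + 1))

omit [DecidableEq K] in
theorem xc_neg [DecidableEq K] (P : W.Point) : xc (-P) = xc P := by
  cases P with
  | zero => rfl
  | some x y h => rfl

theorem zsmul_eq_zero_of_dvd {P : W.Point} {p : ℕ} (hpP : p • P = 0) {m : ℤ}
    (hm : (p : ℤ) ∣ m) : m • P = 0 := by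
  obtain ⟨t, rfl⟩ := hm
  rw [mul_comm, mul_smul, natCast_zsmul, hpP, smul_zero]

theorem not_inE0_zsmul (hW : Special W) (ha : v W.a₂ ≤ 1) (hb : v W.a₄ < 1) {p : ℕ}
    (hp : p.Prime) {P : W.Point} (hpP : p • P = 0) (hP0 : ¬ InE0 v P) {m : ℤ}
    (hm : ¬ (p : ℤ) ∣ m) : ¬ InE0 v (m • P) := by
  intro hE
  have hcop : IsCoprime (p : ℤ) m :=
    ((Nat.prime_iff_prime_int.1 hp).irreducible.coprime_iff_not_dvd).2 hm
  obtain ⟨s, t, hst⟩ := hcop
  apply hP0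
  have : P = t • (m • P) := by
    calc P = (1 : ℤ) • P := (one_smul ℤ P).symm
      _ = (s * p + t * m) • P := by rw [hst]
      _ = t • (m • P) := by
        rw [add_smul, mul_smul, mul_smul, natCast_zsmul, hpP, smul_zero, zero_add]
  rw [this]
  exact inE0_zsmul v hW ha hb hE t

theorem not_dvd_two_mul {p : ℕ} (hp : p.Prime) (hp2 : p ≠ 2) {m : ℤ} (hm : ¬ (p : ℤ) ∣ m) :
    ¬ (p : ℤ) ∣ 2 * m := by
  intro h
  rcases (Nat.prime_iff_prime_int.1 hp).dvd_or_dvd h with h' | h'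
  · have h2 : p ∣ 2 := by exact_mod_cast h'
    rcases (Nat.dvd_prime Nat.prime_two).1 h2 with h3 | h3
    · exact hp.one_lt.ne' h3
    · exact hp2 h3
  · exact hm h'

/-- Multiples of a `p`-torsion point outside `E₀` stay near the node and away from the middle
component. -/
theorem near_node (hW : Special W) (ha : v W.a₂ = 1) (hb : v W.a₄ < 1) (hT : W.Nonsingular 0 0)
    {p : ℕ} (hp : p.Prime) (hp2 : p ≠ 2) {P : W.Point} (hpP : p • P = 0) (hP0 : ¬ InE0 v P)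
    {m : ℤ} (hm : ¬ (p : ℤ) ∣ m) :
    ∃ (x y : K) (h : W.Nonsingular x y), m • P = Point.some x y h ∧ x ≠ 0 ∧ v x < 1 ∧
      v W.a₄ < v x := by
  have hE := not_inE0_zsmul v hW (le_of_eq ha) hb hp hpP hP0 hm
  cases hmP : m • P with
  | zero => rw [hmP] at hE; exact absurd trivial hE
  | some x y h =>
    rw [hmP] at hE
    have hx : v x < 1 := not_le.1 hE
    have hbx : v W.a₄ < v x := by
      by_contra hcon
      rw [not_lt] at hcon
      have h1 := sub_T_inE0 v hW hT h hcon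
      have h2 := inE0_nsmul v hW (le_of_eq ha) hb h1 2
      rw [nsmul_sub, two_nsmul_T hW hT, sub_zero, ← hmP] at h2
      have h3 : (2 : ℕ) • (m • P) = (2 * m) • P := by
        rw [mul_smul, ← natCast_zsmul]; rfl
      rw [h3] at h2
      exact not_inE0_zsmul v hW (le_of_eq ha) hb hp hpP hP0 (not_dvd_two_mul hp hp2 hm) h2
    have hx0 : x ≠ 0 := by
      rintro rfl
      rw [map_zero] at hbx
      exact not_lt_zero hbx
    exact ⟨x, y, h, rfl, hx0, hx, hbx⟩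

theorem dvd_of_same_val (hW : Special W) (ha : v W.a₂ = 1) (hb : v W.a₄ < 1)
    (hT : W.Nonsingular 0 0) (h2 : v (2 : K) = 1)
    {p : ℕ} (hp : p.Prime) (hp2 : p ≠ 2) {P : W.Point} (hpP : p • P = 0) (hP0 : ¬ InE0 v P)
    {m m' : ℤ} (hm : ¬ (p : ℤ) ∣ m) (hm' : ¬ (p : ℤ) ∣ m')
    (hval : v (xc (m • P)) = v (xc (m' • P))) : (p : ℤ) ∣ m - m' ∨ (p : ℤ) ∣ m + m' := by
  obtain ⟨x₁, y₁, h₁, e₁, hx₁0, hx₁, hbx₁⟩ := near_node v hW ha hb hT hp hp2 hpP hP0 hm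
  obtain ⟨x₂, y₂, h₂, e₂, hx₂0, hx₂, hbx₂⟩ := near_node v hW ha hb hT hp hp2 hpP hP0 hm'
  rw [e₁, e₂] at hval
  have hval' : v x₁ = v x₂ := hval
  rcases same_val_inE0 v hW ha h2 h₁ h₂ hx₁0 hx₂0 hval' hx₁ hbx₁ with h | h
  · left
    by_contra hcon
    rw [← e₁, ← e₂, ← sub_smul] at h
    exact not_inE0_zsmul v hW (le_of_eq ha) hb hp hpP hP0 hcon h
  · right
    by_contra hcon
    rw [← e₁, ← e₂, ← add_smul] at h
    exact not_inE0_zsmul v hW (le_of_eq ha) hb hp hpP hP0 hcon h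

theorem val_mul_ne (hW : Special W) (ha : v W.a₂ = 1) (hb : v W.a₄ < 1) (hb0 : W.a₄ ≠ 0)
    (hT : W.Nonsingular 0 0) (h2 : v (2 : K) = 1)
    {p : ℕ} (hp : p.Prime) (hp2 : p ≠ 2) {P : W.Point} (hpP : p • P = 0) (hP0 : ¬ InE0 v P)
    {m m' : ℤ} (hm : ¬ (p : ℤ) ∣ m) (hm' : ¬ (p : ℤ) ∣ m') :
    v (xc (m • P)) * v (xc (m' • P)) ≠ v W.a₄ := by
  intro hval
  obtain ⟨x₁, y₁, h₁, e₁, hx₁0, hx₁, hbx₁⟩ := near_node v hW ha hb hT hp hp2 hpP hP0 hm
  obtain ⟨x₂, y₂, h₂, e₂, hx₂0, hx₂, hbx₂⟩ := near_node v hW ha hb hT hp hp2 hpP hP0 hm'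
  rw [e₁, e₂] at hval
  have hval' : v x₁ * v x₂ = v W.a₄ := hval
  have hvx₁ : 0 < v x₁ := zero_lt_iff.2 ((Valuation.ne_zero_iff v).2 hx₁0)
  -- the point `Q = m • P + T`
  obtain ⟨yq, hq, eq⟩ := add_T hW hT h₁ hx₁0
  have hq0 : W.a₄ / x₁ ≠ 0 := div_ne_zero hb0 hx₁0
  have hqval : v x₂ = v (W.a₄ / x₁) := by
    rw [map_div₀, ← hval', mul_comm, mul_div_assoc, div_self (ne_of_gt hvx₁), mul_one]
  have hbq : v W.a₄ < v x₂ := hbx₂
  have key : ∀ k : ℤ, InE0 v (k • P + Point.some 0 0 hT) → False := by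
    intro k hk
    have h1 := inE0_nsmul v hW (le_of_eq ha) hb hk 2
    rw [nsmul_add, two_nsmul_T hW hT, add_zero] at h1
    have h3 : (2 : ℕ) • (k • P) = (2 * k) • P := by
      rw [mul_smul, ← natCast_zsmul]; rfl
    rw [h3] at h1
    by_cases hk' : (p : ℤ) ∣ k
    · rw [zsmul_eq_zero_of_dvd hpP hk', zero_add] at hk
      exact T_not_inE0 v hT hk
    · exact not_inE0_zsmul v hW (le_of_eq ha) hb hp hpP hP0 (not_dvd_two_mul hp hp2 hk') h1
  rcases same_val_inE0 v hW ha h2 h₂ hq hx₂0 hq0 hqval hx₂ hbq with h | h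
  · -- m' • P - (m • P + T) ∈ E₀
    rw [← eq, ← e₁, ← e₂] at h
    have h' := inE0_neg v h
    have : -(m' • P - (m • P + Point.some 0 0 hT)) = (m - m') • P + Point.some 0 0 hT := by
      rw [sub_smul]; abel
    rw [this] at h'
    exact key _ h'
  · rw [← eq, ← e₁, ← e₂] at h
    have : m' • P + (m • P + Point.some 0 0 hT) = (m' + m) • P + Point.some 0 0 hT := by
      rw [add_smul]; abel
    rw [this] at h
    exact key _ h

end Fermat.Agent.S05
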