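import Fermat.Agent.S05.Core7

set_option autoImplicit false
set_option linter.unusedSectionVars false

namespace Fermat.Agent.S05

open WeierstrassCurve WeierstrassCurve.Affine

variable {K : Type*} [Field K] [DecidableEq K] {Γ₀ : Type*} [LinearOrderedCommGroupWithZero Γ₀]
  (v : Valuation K Γ₀) {W : WeierstrassCurve.Affine K}

/-- Product formula `x(P₁+P₂) x(P₁-P₂) (x₁-x₂)² = (x₁x₂ - a₄)²`. -/
theorem xc_add_mul_xc_sub (hW : Special W) {x₁ y₁ x₂ y₂ : K} (h₁ : W.Nonsingular x₁ y₁)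
    (h₂ : W.Nonsingular x₂ y₂) (hx₁0 : x₁ ≠ 0) (hx₂0 : x₂ ≠ 0) (hxx : x₁ ≠ x₂) :
    xc (Point.some x₁ y₁ h₁ + Point.some x₂ y₂ h₂) * xc (Point.some x₁ y₁ h₁ - Point.some x₂ y₂ h₂)
      * (x₁ - x₂) ^ 2 = (x₁ * x₂ - W.a₄) ^ 2 := by
  have hne : ¬(x₁ = x₂ ∧ y₁ = -y₂) := fun h => hxx h.1
  have hne' : ¬(x₁ = x₂ ∧ y₁ = y₂) := fun h => hxx h.1
  obtain ⟨xp, yp, hp, hadd, -, hMp, -, -⟩ := add_formula hW h₁ h₂ hne
  obtain ⟨xm, ym, hm, hsub, hNm, -, -, -⟩ := sub_formula hW h₁ h₂ hne'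
  rw [hadd, hsub]
  change xp * xm * (x₁ - x₂) ^ 2 = (x₁ * x₂ - W.a₄) ^ 2
  have h12 : x₁ * x₂ ≠ 0 := mul_ne_zero hx₁0 hx₂0
  apply mul_left_cancel₀ h12
  linear_combination xm * hMp + hNm

theorem xc_double (hW : Special W) {x y : K} (h : W.Nonsingular x y) (hy : y ≠ 0)
    (h20 : (2 : K) ≠ 0) :
    xc (Point.some x y h + Point.some x y h) * (4 * y ^ 2) = (x ^ 2 - W.a₄) ^ 2 := by
  have hne : ¬(x = x ∧ y = -y) := by
    rintro ⟨-, h'⟩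
    apply hy
    have : 2 * y = 0 := by linear_combination h'
    rcases mul_eq_zero.1 this with h'' | h''
    · exact absurd h'' h20
    · exact h''
  obtain ⟨x₃, y₃, h₃, hadd, -, -, -, hdb⟩ := add_formula hW h h hne
  rw [hadd]
  exact hdb rfl

omit [DecidableEq K] in
theorem ord_sub_of_ne {x y : K} (hx : x ≠ 0) (hy : y ≠ 0) (h : ord v x ≠ ord v y) :
    x - y ≠ 0 ∧ ord v (x - y) = min (ord v x) (ord v y) := by
  rcases lt_or_gt_of_ne h with h' | h'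
  · have := ord_sub_eq_of_lt v hx hy h'
    exact ⟨this.1, by rw [this.2, min_eq_left (le_of_lt h')]⟩
  · have := ord_sub_eq_of_gt v hx hy h'
    exact ⟨this.1, by rw [this.2, min_eq_right (le_of_lt h')]⟩

section Chain

variable (hW : Special W) (ha : v W.a₂ = 1) (hb : v W.a₄ < 1) (hb0 : W.a₄ ≠ 0)
  (hT : W.Nonsingular 0 0) (h2 : v (2 : K) = 1)
  {p : ℕ} (hp : p.Prime) (hp2 : p ≠ 2) {P : W.Point} (hpP : p • P = 0) (hP0 : ¬ InE0 v P)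

include hW ha hb hb0 hT h2 hp hp2 hpP hP0

theorem ord_bounds {m : ℤ} (hm : ¬ (p : ℤ) ∣ m) :
    0 < ord v (xc (m • P)) ∧ ord v (xc (m • P)) < ord v W.a₄ := by
  obtain ⟨x₁, y₁, h₁, e₁, hx₁0, hx₁, hbx₁⟩ := near_node v hW ha hb hT hp hp2 hpP hP0 hm
  rw [e₁]
  change 0 < ord v x₁ ∧ ord v x₁ < ord v W.a₄
  exact ⟨(ord_pos_iff v hx₁0).2 hx₁, (ord_lt_iff v hx₁0 hb0).2 hbx₁⟩

theorem ord_add_ne {m m' : ℤ} (hm : ¬ (p : ℤ) ∣ m) (hm' : ¬ (p : ℤ) ∣ m') :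
    ord v (xc (m • P)) + ord v (xc (m' • P)) ≠ ord v W.a₄ := by
  have hne := val_mul_ne v hW ha hb hb0 hT h2 hp hp2 hpP hP0 hm hm'
  obtain ⟨x₁, y₁, h₁, e₁, hx₁0, hx₁, hbx₁⟩ := near_node v hW ha hb hT hp hp2 hpP hP0 hm
  obtain ⟨x₂, y₂, h₂, e₂, hx₂0, hx₂, hbx₂⟩ := near_node v hW ha hb hT hp hp2 hpP hP0 hm'
  rw [e₁, e₂] at hne ⊢
  change ord v x₁ + ord v x₂ ≠ ord v W.a₄
  have hne' : v x₁ * v x₂ ≠ v W.a₄ := hne
  rw [← ord_mul v hx₁0 hx₂0]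
  intro h
  apply hne'
  rw [← map_mul]
  exact (ord_eq_iff v (mul_ne_zero hx₁0 hx₂0) hb0).1 h

theorem rec_formula {m m' : ℤ} (hm : ¬ (p : ℤ) ∣ m) (hm' : ¬ (p : ℤ) ∣ m')
    (hs : ¬ (p : ℤ) ∣ m + m') (hd : ¬ (p : ℤ) ∣ m - m') :
    ord v (xc ((m + m') • P)) + ord v (xc ((m - m') • P))
        + 2 • min (ord v (xc (m • P))) (ord v (xc (m' • P)))
      = 2 • min (ord v (xc (m • P)) + ord v (xc (m' • P))) (ord v W.a₄) := by
  have hne := ord_add_ne v hW ha hb hb0 hT h2 hp hp2 hpP hP0 hm hm'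
  have hsame : v (xc (m • P)) ≠ v (xc (m' • P)) := by
    intro h
    rcases dvd_of_same_val v hW ha hb hT h2 hp hp2 hpP hP0 hm hm' h with h' | h'
    · exact hd h'
    · exact hs h'
  obtain ⟨xs, ys, hs', es, hxs0, -, -⟩ := near_node v hW ha hb hT hp hp2 hpP hP0 hs
  obtain ⟨xd, yd, hd', ed, hxd0, -, -⟩ := near_node v hW ha hb hT hp hp2 hpP hP0 hd
  obtain ⟨x₁, y₁, h₁, e₁, hx₁0, hx₁, hbx₁⟩ := near_node v hW ha hb hT hp hp2 hpP hP0 hm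
  obtain ⟨x₂, y₂, h₂, e₂, hx₂0, hx₂, hbx₂⟩ := near_node v hW ha hb hT hp hp2 hpP hP0 hm'
  have hxx : x₁ ≠ x₂ := by
    rintro rfl
    apply hsame; rw [e₁, e₂]; rfl
  have hprod := xc_add_mul_xc_sub hW h₁ h₂ hx₁0 hx₂0 hxx
  rw [← e₁, ← e₂, ← add_smul, ← sub_smul, es, ed] at hprod
  have hprod' : xs * xd * (x₁ - x₂) ^ 2 = (x₁ * x₂ - W.a₄) ^ 2 := hprod
  have hsame' : v x₁ ≠ v x₂ := by
    have := hsame; rw [e₁, e₂] at this; exact this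
  have hne' : ord v x₁ + ord v x₂ ≠ ord v W.a₄ := by
    have := hne; rw [e₁, e₂] at this; exact this
  rw [es, ed, e₁, e₂]
  change ord v xs + ord v xd + 2 • min (ord v x₁) (ord v x₂)
      = 2 • min (ord v x₁ + ord v x₂) (ord v W.a₄)
  have hne1 : ord v x₁ ≠ ord v x₂ := by
    intro h
    apply hsame'
    exact (ord_eq_iff v hx₁0 hx₂0).1 h
  have hne2 : ord v (x₁ * x₂) ≠ ord v W.a₄ := by
    rw [ord_mul v hx₁0 hx₂0]; exact hne'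
  obtain ⟨hd0, hdord⟩ := ord_sub_of_ne v hx₁0 hx₂0 hne1
  obtain ⟨hn0, hnord⟩ := ord_sub_of_ne v (mul_ne_zero hx₁0 hx₂0) hb0 hne2
  have h1 := congrArg (ord v) hprod'
  rw [ord_mul v (mul_ne_zero hxs0 hxd0) (pow_ne_zero 2 hd0), ord_mul v hxs0 hxd0,
    ord_pow v hd0, ord_pow v hn0, hdord, hnord, ord_mul v hx₁0 hx₂0] at h1
  exact h1

theorem rec_double {m : ℤ} (hm : ¬ (p : ℤ) ∣ m) :
    ord v (xc ((2 * m) • P)) + 2 • ord v (xc (m • P))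
      = 2 • min (2 • ord v (xc (m • P))) (ord v W.a₄) := by
  have hne := ord_add_ne v hW ha hb hb0 hT h2 hp hp2 hpP hP0 hm hm
  have hm2 := not_dvd_two_mul hp hp2 hm
  obtain ⟨xs, ys, hs', es, hxs0, -, -⟩ := near_node v hW ha hb hT hp hp2 hpP hP0 hm2
  obtain ⟨x₁, y₁, h₁, e₁, hx₁0, hx₁, hbx₁⟩ := near_node v hW ha hb hT hp hp2 hpP hP0 hm
  have h20 : (2 : K) ≠ 0 := ne_zero_of_unit v h2
  have hy : v y₁ = v x₁ := val_y_eq_val_x v hW ha h₁ hx₁0 hx₁ hbx₁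
  have hy0 : y₁ ≠ 0 := by
    rintro rfl
    rw [map_zero] at hy
    exact hx₁0 ((Valuation.zero_iff v).1 hy.symm)
  have hdb := xc_double hW h₁ hy0 h20
  have h2m : (2 * m) • P = m • P + m • P := by rw [two_mul, add_smul]
  rw [← e₁, ← h2m, es] at hdb
  have hdb' : xs * (4 * y₁ ^ 2) = (x₁ ^ 2 - W.a₄) ^ 2 := hdb
  have hne' : ord v x₁ + ord v x₁ ≠ ord v W.a₄ := by
    have := hne; rw [e₁] at this; exact this
  rw [es, e₁]
  change ord v xs + 2 • ord v x₁ = 2 • min (2 • ord v x₁) (ord v W.a₄)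
  have h40 : (4 : K) ≠ 0 := ne_zero_of_unit v (unit_four v h2)
  have hne2 : ord v (x₁ ^ 2) ≠ ord v W.a₄ := by
    rw [ord_pow v hx₁0, two_nsmul]; exact hne'
  obtain ⟨hn0, hnord⟩ := ord_sub_of_ne v (pow_ne_zero 2 hx₁0) hb0 hne2
  have h1 := congrArg (ord v) hdb'
  rw [ord_mul v hxs0 (mul_ne_zero h40 (pow_ne_zero 2 hy0)), ord_mul v h40 (pow_ne_zero 2 hy0),
    (ord_eq_zero_iff v h40).2 (unit_four v h2), zero_add, ord_pow v hy0,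
    (ord_eq_iff v hy0 hx₁0).2 hy, ord_pow v hn0, hnord, ord_pow v hx₁0] at h1
  exact h1

end Chain

end Fermat.Agent.S05
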