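import Fermat.Agent.S05.Core8

set_option autoImplicit false
set_option linter.unusedSectionVars false

namespace Fermat.Agent.S05

open WeierstrassCurve WeierstrassCurve.Affine

variable {K : Type*} [Field K] [DecidableEq K] {Γ₀ : Type*} [LinearOrderedCommGroupWithZero Γ₀]
  (v : Valuation K Γ₀) {W : WeierstrassCurve.Affine K}

omit [DecidableEq K] in
theorem ord_zero : ord v (0 : K) = 0 := by
  unfold ord; rw [dif_pos rfl]

theorem not_dvd_natCast {p m : ℕ} (h1 : 1 ≤ m) (h2 : m < p) : ¬ (p : ℤ) ∣ (m : ℤ) := by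
  intro h
  have h' : p ∣ m := by exact_mod_cast h
  exact absurd (Nat.le_of_dvd (by omega) h') (by omega)

/-- The valuation of the `x`-coordinate of a `p`-torsion point outside `E₀` is commensurable
with the valuation of `a₄`. -/
theorem torsion_val (hW : Special W) (ha : v W.a₂ = 1) (hb : v W.a₄ < 1) (hb0 : W.a₄ ≠ 0)
    (hT : W.Nonsingular 0 0) (h2 : v (2 : K) = 1)
    {p : ℕ} (hp : p.Prime) (hp2 : p ≠ 2) {P : W.Point} (hpP : p • P = 0) (hP0 : ¬ InE0 v P) :
    ∃ k : ℤ, p • ord v (xc P) = (2 * k) • ord v W.a₄ := by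
  have hp3 : 3 ≤ p := by
    have := hp.two_le
    omega
  have h1 : ¬ (p : ℤ) ∣ 1 := by
    have := not_dvd_natCast (p := p) (m := 1) le_rfl (by omega)
    simpa using this
  have key := sawtooth (ord v W.a₄) (fun m : ℕ => ord v (xc ((m : ℤ) • P))) p hp3 ?_ ?_ ?_ ?_ ?_
  · simpa using key
  · -- j 0 = 0
    change ord v (xc (((0 : ℕ) : ℤ) • P)) = 0
    rw [Nat.cast_zero, zero_smul]
    exact ord_zero v
  · -- bounds
    intro m hm1 hm2
    exact ord_bounds v hW ha hb hb0 hT h2 hp hp2 hpP hP0 (not_dvd_natCast hm1 (by omega))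
  · -- recursion
    intro m hm1 hm2
    change ord v (xc (((m + 1 : ℕ) : ℤ) • P)) + ord v (xc (((m - 1 : ℕ) : ℤ) • P))
        + 2 • min (ord v (xc ((m : ℤ) • P))) (ord v (xc (((1 : ℕ) : ℤ) • P)))
      = 2 • min (ord v (xc ((m : ℤ) • P)) + ord v (xc (((1 : ℕ) : ℤ) • P))) (ord v W.a₄)
    rcases Nat.eq_or_lt_of_le hm1 with rfl | hm
    · have hd := rec_double v hW ha hb hb0 hT h2 hp hp2 hpP hP0 h1
      have e0 : (((1 - 1 : ℕ) : ℤ)) • P = 0 := by simp
      have e2 : (((1 + 1 : ℕ) : ℤ)) • P = (2 * 1 : ℤ) • P := by norm_num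
      rw [e0, e2, Nat.cast_one, min_self]
      change _ + ord v (0 : K) + _ = _
      rw [ord_zero, add_zero, ← two_nsmul]
      exact hd
    · have hm' : ¬ (p : ℤ) ∣ (m : ℤ) := not_dvd_natCast hm1 (by omega)
      have hs : ¬ (p : ℤ) ∣ (m : ℤ) + 1 := by
        have := not_dvd_natCast (p := p) (m := m + 1) (by omega) (by omega)
        simpa using this
      have hd : ¬ (p : ℤ) ∣ (m : ℤ) - 1 := by
        have := not_dvd_natCast (p := p) (m := m - 1) (by omega) (by omega)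
        rwa [Nat.cast_sub hm1, Nat.cast_one] at this
      have hr := rec_formula v hW ha hb hb0 hT h2 hp hp2 hpP hP0 hm' h1 hs hd
      rw [Nat.cast_add, Nat.cast_sub hm1, Nat.cast_one]
      exact hr
  · -- non-degeneracy
    intro m hm1 hm2
    change ord v (xc ((m : ℤ) • P)) + ord v (xc (((1 : ℕ) : ℤ) • P)) ≠ ord v W.a₄
    rw [Nat.cast_one]
    exact ord_add_ne v hW ha hb hb0 hT h2 hp hp2 hpP hP0 (not_dvd_natCast hm1 (by omega)) h1
  · -- symmetry
    change ord v (xc (((p - 1 : ℕ) : ℤ) • P)) = ord v (xc (((1 : ℕ) : ℤ) • P))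
    have : ((p - 1 : ℕ) : ℤ) • P = -P := by
      rw [Nat.cast_sub (by omega), sub_smul, natCast_zsmul, hpP, Nat.cast_one, one_smul, zero_sub]
    rw [this, xc_neg, Nat.cast_one, one_smul]

end Fermat.Agent.S05
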