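import Mathlib

set_option autoImplicit false

namespace Fermat.Agent.S05

variable {K : Type*} [Field K] {Γ₀ : Type*} [LinearOrderedCommGroupWithZero Γ₀]
  (v : Valuation K Γ₀)

open Classical in
/-- Additive order function attached to a valuation (junk value `0` at `0`).
`ord x > 0` iff `v x < 1`. -/
noncomputable def ord (x : K) : Additive Γ₀ˣ :=
  if h : x = 0 then 0 else - Additive.ofMul (Units.mk0 (v x) ((Valuation.ne_zero_iff v).2 h))

theorem ord_of_ne {x : K} (h : x ≠ 0) :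
    ord v x = - Additive.ofMul (Units.mk0 (v x) ((Valuation.ne_zero_iff v).2 h)) := by
  unfold ord; rw [dif_neg h]

theorem ord_mul {x y : K} (hx : x ≠ 0) (hy : y ≠ 0) : ord v (x * y) = ord v x + ord v y := by
  rw [ord_of_ne v hx, ord_of_ne v hy, ord_of_ne v (mul_ne_zero hx hy), ← neg_add, neg_inj,
    ← ofMul_mul]
  congr 1
  ext
  simp

theorem ord_one : ord v (1 : K) = 0 := by
  have h := ord_mul v (one_ne_zero (α := K)) (one_ne_zero (α := K))
  rw [one_mul] at h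
  exact left_eq_add.mp h

theorem ord_inv {x : K} (hx : x ≠ 0) : ord v x⁻¹ = - ord v x := by
  have h := ord_mul v hx (inv_ne_zero hx)
  rw [mul_inv_cancel₀ hx, ord_one] at h
  exact eq_neg_of_add_eq_zero_right h.symm

theorem ord_div {x y : K} (hx : x ≠ 0) (hy : y ≠ 0) : ord v (x / y) = ord v x - ord v y := by
  rw [div_eq_mul_inv, ord_mul v hx (inv_ne_zero hy), ord_inv v hy, sub_eq_add_neg]

theorem ord_pow {x : K} (hx : x ≠ 0) (n : ℕ) : ord v (x ^ n) = n • ord v x := by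
  induction n with
  | zero => simp [ord_one]
  | succ n ih => rw [pow_succ, ord_mul v (pow_ne_zero n hx) hx, ih, succ_nsmul]

theorem ord_neg (x : K) : ord v (-x) = ord v x := by
  by_cases hx : x = 0
  · simp [hx]
  · rw [ord_of_ne v hx, ord_of_ne v (neg_ne_zero.2 hx)]
    congr 2
    ext
    simp

theorem ord_pos_iff {x : K} (hx : x ≠ 0) : 0 < ord v x ↔ v x < 1 := by
  rw [ord_of_ne v hx, neg_pos]
  have h0 : v x ≠ 0 := (Valuation.ne_zero_iff v).2 hx
  change Units.mk0 (v x) h0 < 1 ↔ _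
  rw [← Units.val_lt_val]
  simp

theorem ord_nonneg_iff {x : K} (hx : x ≠ 0) : 0 ≤ ord v x ↔ v x ≤ 1 := by
  rw [ord_of_ne v hx, neg_nonneg]
  have h0 : v x ≠ 0 := (Valuation.ne_zero_iff v).2 hx
  change Units.mk0 (v x) h0 ≤ 1 ↔ _
  rw [← Units.val_le_val]
  simp

theorem ord_neg_iff {x : K} (hx : x ≠ 0) : ord v x < 0 ↔ 1 < v x := by
  rw [← not_le, ord_nonneg_iff v hx, not_le]

theorem ord_eq_zero_iff {x : K} (hx : x ≠ 0) : ord v x = 0 ↔ v x = 1 := by
  rw [le_antisymm_iff, le_antisymm_iff (a := v x), ord_nonneg_iff v hx, ← not_lt, ord_pos_iff v hx,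
    not_lt, and_comm]

theorem ord_le_iff {x y : K} (hx : x ≠ 0) (hy : y ≠ 0) : ord v x ≤ ord v y ↔ v y ≤ v x := by
  have h := ord_nonneg_iff v (div_ne_zero hy hx)
  rw [ord_div v hy hx, sub_nonneg, map_div₀, div_le_one₀ (zero_lt_iff.2 ((Valuation.ne_zero_iff v).2 hx))] at h
  exact h

theorem ord_lt_iff {x y : K} (hx : x ≠ 0) (hy : y ≠ 0) : ord v x < ord v y ↔ v y < v x := by
  rw [← not_le, ord_le_iff v hy hx, not_le]

theorem ord_eq_iff {x y : K} (hx : x ≠ 0) (hy : y ≠ 0) : ord v x = ord v y ↔ v x = v y := by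
  rw [le_antisymm_iff, le_antisymm_iff (a := v x), ord_le_iff v hx hy, ord_le_iff v hy hx, and_comm]

theorem ord_add_ge {x y : K} (hx : x ≠ 0) (hy : y ≠ 0) (hxy : x + y ≠ 0) :
    min (ord v x) (ord v y) ≤ ord v (x + y) := by
  rcases le_total (v x) (v y) with h | h
  · have h1 : v (x + y) ≤ v y := (v.map_add x y).trans (max_le h le_rfl)
    exact (min_le_right _ _).trans ((ord_le_iff v hy hxy).2 h1)
  · have h1 : v (x + y) ≤ v x := (v.map_add x y).trans (max_le le_rfl h)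
    exact (min_le_left _ _).trans ((ord_le_iff v hx hxy).2 h1)

theorem ord_add_eq_of_lt {x y : K} (hx : x ≠ 0) (hy : y ≠ 0) (h : ord v x < ord v y) :
    x + y ≠ 0 ∧ ord v (x + y) = ord v x := by
  have h1 : v y < v x := (ord_lt_iff v hx hy).1 h
  have h2 : v (x + y) = v x := Valuation.map_add_eq_of_lt_left v h1
  have h3 : x + y ≠ 0 := by
    intro h0
    rw [h0, map_zero] at h2
    exact hx ((Valuation.zero_iff v).1 h2.symm)
  exact ⟨h3, (ord_eq_iff v h3 hx).2 h2⟩

theorem ord_sub_eq_of_lt {x y : K} (hx : x ≠ 0) (hy : y ≠ 0) (h : ord v x < ord v y) :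
    x - y ≠ 0 ∧ ord v (x - y) = ord v x := by
  have := ord_add_eq_of_lt v hx (neg_ne_zero.2 hy) (by rwa [ord_neg])
  rwa [← sub_eq_add_neg] at this

theorem ord_sub_eq_of_gt {x y : K} (hx : x ≠ 0) (hy : y ≠ 0) (h : ord v y < ord v x) :
    x - y ≠ 0 ∧ ord v (x - y) = ord v y := by
  have := ord_sub_eq_of_lt v hy hx h
  rw [← neg_sub, ord_neg] at this
  exact ⟨fun h0 => this.1 (by rw [h0, neg_zero]), this.2⟩

theorem ord_sub_ge {x y : K} (hx : x ≠ 0) (hy : y ≠ 0) (hxy : x - y ≠ 0) :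
    min (ord v x) (ord v y) ≤ ord v (x - y) := by
  have := ord_add_ge v hx (neg_ne_zero.2 hy) (by rwa [← sub_eq_add_neg])
  rwa [ord_neg, ← sub_eq_add_neg] at this

end Fermat.Agent.S05
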